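import Fermat.Agent.S52.Irred3.FamGeomCore
import Fermat.Agent.S52.Klein.ExistsUV
import Fermat.Agent.S52.Klein.LineH
import Fermat.Agent.S52.Klein.LineT
import Fermat.Agent.S52.Klein.LineF

/-!
# S52, NODE D9: geometry of the family

`fam_disc` (discriminant of the family), `fam_sep` (the cusps are simple zeros of `polyD`),
`fam_cop` (`c4` does not vanish at the cusps).
-/

set_option autoImplicit false
open Polynomial

namespace Fermat.Agent.S52

/-- D9a : discriminant of the family. -/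
theorem fam_disc {k : Type*} [Field k] [IsAlgClosed k] (h30 : (30 : k) ≠ 0) (H T : k)
    (h : H ^ 3 - T ^ 2 ≠ 0) :
    polyA H T ^ 3 - polyB H T ^ 2 = C (H ^ 3 - T ^ 2) * polyD H T ^ 5 := by
  obtain ⟨u, v, rfl, rfl⟩ := exists_uv h30 H T h
  exact famGeom_disc_core u v kH_line kT_line kf_line

/-- D9b : the cusps are simple zeros of `polyD`. -/
theorem fam_sep {k : Type*} [Field k] [IsAlgClosed k] (h30 : (30 : k) ≠ 0) (H T : k)
    (h : H ^ 3 - T ^ 2 ≠ 0) (t : k) (h0 : (polyD H T).eval t = 0) :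
    (polyD H T).derivative.eval t ≠ 0 := by
  obtain ⟨u, v, rfl, rfl⟩ := exists_uv h30 H T h
  exact famGeom_sep_core h30 u v t h kf_line (eq_zero_of_kfu_kfv h30) h0

/-- D9c = C3 : `c4` does not vanish at the cusps. -/
theorem fam_cop {k : Type*} [Field k] [IsAlgClosed k] (h30 : (30 : k) ≠ 0) (H T : k)
    (h : H ^ 3 - T ^ 2 ≠ 0) (t : k) (h0 : famD H T t = 0) : famA H T t ≠ 0 := by
  obtain ⟨u, v, rfl, rfl⟩ := exists_uv h30 H T h
  exact famGeom_cop_core h30 u v t h kH_line kf_line
    (eq_zero_of_kf_kH (famGeom_five_ne_zero h30)) h0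

end Fermat.Agent.S52
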