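import Fermat.Agent.S52.Irred3.Defs

/-!
# S52, NODE D7: the quartic has no polynomial root (abstract version)
-/

set_option autoImplicit false
open Polynomial

namespace Fermat.Agent.S52

theorem noPolyRoot_rootMultiplicity_pow {k : Type*} [Field k] {p : k[X]} (hp : p ≠ 0) (t : k)
    (n : ℕ) : rootMultiplicity t (p ^ n) = n * rootMultiplicity t p := by
  induction n with
  | zero => simp
  | succ n ih =>
    rw [pow_succ, rootMultiplicity_mul (mul_ne_zero (pow_ne_zero _ hp) hp), ih]
    ring

/-- D7 : no polynomial root (abstract). -/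
theorem no_poly_root {k : Type*} [Field k] [IsAlgClosed k] [CharZero k] (A B G : k[X]) (c : k)
    (hc : c ≠ 0) (hD : A ^ 3 - B ^ 2 = C c * G ^ 5)
    (hsep : ∀ t : k, G.eval t = 0 → G.derivative.eval t ≠ 0)
    (hcop : ∀ t : k, G.eval t = 0 → A.eval t ≠ 0)
    (hA : A.natDegree ≤ 20) (hG : 4 ≤ G.natDegree) (Z : k[X]) : quartic A B Z ≠ 0 := by
  intro hQ
  obtain ⟨m, hm⟩ : ∃ m : k[X], m = Z ^ 2 - A := ⟨_, rfl⟩
  obtain ⟨e, he⟩ : ∃ e : k[X], e = Z ^ 3 - 3 * A * Z - 2 * B := ⟨_, rfl⟩
  have I1 : 3 * m ^ 2 = 4 * Z * e := by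
    have h : 4 * Z * e - 3 * m ^ 2 = quartic A B Z := by
      rw [hm, he, quartic]
      ring
    rw [hQ] at h
    linear_combination -h
  have I2 : m ^ 3 - 2 * e ^ 2 = 8 * (C c * G ^ 5) := by
    have h : m ^ 3 - 2 * e ^ 2 = 8 * (A ^ 3 - B ^ 2) + (3 * A - Z ^ 2) * quartic A B Z := by
      rw [hm, he, quartic]
      ring
    rw [h, hQ, hD]
    ring
  have I3 : m ^ 3 * (8 * Z ^ 2 - 9 * m) = C (64 * c) * (Z ^ 2 * G ^ 5) := by
    have hC : (C (64 * c) : k[X]) = 64 * C c := by
      rw [C_mul]
      congr 1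
    rw [hC]
    linear_combination 8 * Z ^ 2 * I2 - (4 * Z * e + 3 * m ^ 2) * I1
  have hG0 : G ≠ 0 := by
    rintro rfl
    simp at hG
  have hnoroot : ∀ t : k, e.eval t ≠ 0 := by
    intro t het
    have hmt : m.eval t = 0 := by
      have h := congrArg (eval t) I1
      simpa [het] using h
    have hGt : G.eval t = 0 := by
      have h := congrArg (eval t) I2
      simpa [het, hmt, hc] using h.symm
    have hAt := hcop t hGt
    have hZt : Z.eval t ^ 2 = A.eval t := by
      have h : m.eval t = Z.eval t ^ 2 - A.eval t := by simp [hm]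
      rw [hmt] at h
      linear_combination -h
    have hZ0 : Z ≠ 0 := by
      rintro rfl
      simp at hZt
      exact hAt hZt.symm
    have hZt0 : Z.eval t ≠ 0 := by
      intro h
      rw [h] at hZt
      simp at hZt
      exact hAt hZt.symm
    have hR : C (64 * c) * (Z ^ 2 * G ^ 5) ≠ 0 :=
      mul_ne_zero (C_ne_zero.mpr (mul_ne_zero (by norm_num) hc))
        (mul_ne_zero (pow_ne_zero _ hZ0) (pow_ne_zero _ hG0))
    have hL : m ^ 3 * (8 * Z ^ 2 - 9 * m) ≠ 0 := I3 ▸ hR
    have hm0 : m ≠ 0 := by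
      rintro rfl
      simp at hL
    have r1 : rootMultiplicity t (8 * Z ^ 2 - 9 * m) = 0 := by
      apply rootMultiplicity_eq_zero
      simp only [IsRoot.def, eval_sub, eval_mul, eval_pow, eval_ofNat, hmt, hZt]
      simpa using hAt
    have r2 : rootMultiplicity t (C (64 * c)) = 0 := rootMultiplicity_C _ _
    have r3 : rootMultiplicity t Z = 0 := rootMultiplicity_eq_zero hZt0
    have r4 : rootMultiplicity t G = 1 := by
      have h1 : 0 < rootMultiplicity t G := (rootMultiplicity_pos hG0).mpr hGt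
      have h2 : ¬ 1 < rootMultiplicity t G := by
        rw [one_lt_rootMultiplicity_iff_isRoot hG0]
        rintro ⟨_, h⟩
        exact hsep t hGt h
      omega
    have key := congrArg (rootMultiplicity t) I3
    rw [rootMultiplicity_mul hL, rootMultiplicity_mul hR,
      rootMultiplicity_mul (right_ne_zero_of_mul hR), noPolyRoot_rootMultiplicity_pow hm0,
      noPolyRoot_rootMultiplicity_pow hZ0, noPolyRoot_rootMultiplicity_pow hG0, r1, r2, r3, r4]
      at key
    omega
  have hdeg : e.degree = 0 := by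
    by_contra h
    obtain ⟨t, ht⟩ := IsAlgClosed.exists_root e h
    exact hnoroot t ht
  obtain ⟨e0, he0⟩ : ∃ e0 : k, e = C e0 := ⟨_, eq_C_of_degree_eq_zero hdeg⟩
  have he00 : e0 ≠ 0 := by
    rintro rfl
    rw [he0] at hdeg
    simp at hdeg
  have d1 : 3 * m.natDegree = 5 * G.natDegree := by
    have h : m ^ 3 = C (8 * c) * G ^ 5 + C (2 * e0 ^ 2) := by
      have hC : (C (8 * c) : k[X]) = 8 * C c := by
        rw [C_mul]
        congr 1
      have hC2 : (C (2 * e0 ^ 2) : k[X]) = 2 * (C e0) ^ 2 := by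
        rw [C_mul, C_pow]
        congr 1
      rw [hC, hC2, ← he0]
      linear_combination I2
    have h2 := congrArg natDegree h
    rw [natDegree_add_C, natDegree_C_mul (mul_ne_zero (by norm_num) hc), natDegree_pow,
      natDegree_pow] at h2
    exact h2
  have d2 : 2 * m.natDegree = Z.natDegree := by
    have h : C (3 : k) * m ^ 2 = C (4 * e0) * Z := by
      have hC : (C (3 : k) : k[X]) = 3 := rfl
      have hC2 : (C (4 * e0) : k[X]) = 4 * C e0 := by
        rw [C_mul]
        congr 1
      rw [hC, hC2, ← he0]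
      linear_combination I1
    have h2 := congrArg natDegree h
    rw [natDegree_C_mul (by norm_num), natDegree_C_mul (mul_ne_zero (by norm_num) he00),
      natDegree_pow] at h2
    exact h2
  have d3 : A.natDegree = 2 * Z.natDegree := by
    have h : A = Z ^ 2 - m := by rw [hm]; ring
    rw [h, natDegree_sub_eq_left_of_natDegree_lt, natDegree_pow]
    rw [natDegree_pow]
    omega
  omega

end Fermat.Agent.S52
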