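import Fermat.Agent.S52.Irred3.Defs

/-!
# S52, NODE D: the family as polynomials in `t` (task S52-DP, helper79)
-/

set_option autoImplicit false
open Polynomial

namespace Fermat.Agent.S52

section Poly

variable {R : Type*} [CommRing R]

theorem poly_famAc_of_lt (H T : R) {n : ℕ} (h : 20 < n) : famAc H T n = 0 := by
  unfold famAc
  split <;> first | rfl | (exfalso; omega)

theorem poly_famBc_of_lt (H T : R) {n : ℕ} (h : 30 < n) : famBc H T n = 0 := by
  unfold famBc
  split <;> first | rfl | (exfalso; omega)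

theorem poly_famDc_of_lt (H T : R) {n : ℕ} (h : 12 < n) : famDc H T n = 0 := by
  unfold famDc
  split <;> first | rfl | (exfalso; omega)

theorem polyA_eq_sum (H T : R) :
    polyA H T = ∑ k ∈ Finset.range 21, C (famAc H T k) * X ^ k := by
  simp only [polyA, famA, map_famAc]

theorem polyB_eq_sum (H T : R) :
    polyB H T = ∑ k ∈ Finset.range 31, C (famBc H T k) * X ^ k := by
  simp only [polyB, famB, map_famBc]

theorem polyD_eq_sum (H T : R) :
    polyD H T = ∑ k ∈ Finset.range 13, C (famDc H T k) * X ^ k := by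
  simp only [polyD, famD, map_famDc]

theorem polyA_eval (H T t : R) : (polyA H T).eval t = famA H T t := by
  have h := map_famA (evalRingHom t) (C H) (C T) X
  simp only [coe_evalRingHom, eval_C, eval_X] at h
  exact h

theorem polyB_eval (H T t : R) : (polyB H T).eval t = famB H T t := by
  have h := map_famB (evalRingHom t) (C H) (C T) X
  simp only [coe_evalRingHom, eval_C, eval_X] at h
  exact h

theorem polyD_eval (H T t : R) : (polyD H T).eval t = famD H T t := by
  have h := map_famD (evalRingHom t) (C H) (C T) X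
  simp only [coe_evalRingHom, eval_C, eval_X] at h
  exact h

theorem polyA_natDegree_le (H T : R) : (polyA H T).natDegree ≤ 20 := by
  rw [polyA_eq_sum]
  refine natDegree_sum_le_of_forall_le _ _ fun k hk => ?_
  have := Finset.mem_range.mp hk
  exact (natDegree_C_mul_X_pow_le _ _).trans (by omega)

theorem polyB_natDegree_le (H T : R) : (polyB H T).natDegree ≤ 30 := by
  rw [polyB_eq_sum]
  refine natDegree_sum_le_of_forall_le _ _ fun k hk => ?_
  have := Finset.mem_range.mp hk
  exact (natDegree_C_mul_X_pow_le _ _).trans (by omega)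

theorem polyD_natDegree_le (H T : R) : (polyD H T).natDegree ≤ 12 := by
  rw [polyD_eq_sum]
  refine natDegree_sum_le_of_forall_le _ _ fun k hk => ?_
  have := Finset.mem_range.mp hk
  exact (natDegree_C_mul_X_pow_le _ _).trans (by omega)

theorem polyA_coeff (H T : R) (n : ℕ) : (polyA H T).coeff n = famAc H T n := by
  rw [polyA_eq_sum, finsetSum_coeff]
  simp only [coeff_C_mul_X_pow]
  rw [Finset.sum_ite_eq]
  split_ifs with h
  · rfl
  · exact (poly_famAc_of_lt H T (by rw [Finset.mem_range] at h; omega)).symm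

theorem polyB_coeff (H T : R) (n : ℕ) : (polyB H T).coeff n = famBc H T n := by
  rw [polyB_eq_sum, finsetSum_coeff]
  simp only [coeff_C_mul_X_pow]
  rw [Finset.sum_ite_eq]
  split_ifs with h
  · rfl
  · exact (poly_famBc_of_lt H T (by rw [Finset.mem_range] at h; omega)).symm

theorem polyD_coeff (H T : R) (n : ℕ) : (polyD H T).coeff n = famDc H T n := by
  rw [polyD_eq_sum, finsetSum_coeff]
  simp only [coeff_C_mul_X_pow]
  rw [Finset.sum_ite_eq]
  split_ifs with h
  · rfl
  · exact (poly_famDc_of_lt H T (by rw [Finset.mem_range] at h; omega)).symm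

theorem polyA_map {S : Type*} [CommRing S] (f : R →+* S) (H T : R) :
    (polyA H T).map f = polyA (f H) (f T) := by
  have h := map_famA (mapRingHom f) (C H) (C T) X
  simp only [coe_mapRingHom, map_C, map_X] at h
  exact h

theorem polyB_map {S : Type*} [CommRing S] (f : R →+* S) (H T : R) :
    (polyB H T).map f = polyB (f H) (f T) := by
  have h := map_famB (mapRingHom f) (C H) (C T) X
  simp only [coe_mapRingHom, map_C, map_X] at h
  exact h

theorem polyD_map {S : Type*} [CommRing S] (f : R →+* S) (H T : R) :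
    (polyD H T).map f = polyD (f H) (f T) := by
  have h := map_famD (mapRingHom f) (C H) (C T) X
  simp only [coe_mapRingHom, map_C, map_X] at h
  exact h

theorem fam_lead (H T : R) :
    famAc H T 20 ^ 3 - famBc H T 30 ^ 2 = (H ^ 3 - T ^ 2) * famDc H T 12 ^ 5 := by
  simp only [famAc, famBc, famDc]
  ring

end Poly

theorem poly_sq_eq_eleven_mul_sq (a b : ℤ) (h : a ^ 2 = 11 * b ^ 2) : b = 0 := by
  by_contra hb
  have hirr : Irrational (√((11 : ℕ) : ℝ)) := Nat.Prime.irrational_sqrt (by norm_num)
  apply hirr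
  have hb' : (b : ℝ) ≠ 0 := by exact_mod_cast hb
  have h' : ((a : ℝ) / b) ^ 2 = ((11 : ℕ) : ℝ) := by
    have h2 : (a : ℝ) ^ 2 = 11 * (b : ℝ) ^ 2 := by exact_mod_cast h
    rw [div_pow, h2]
    field_simp
    norm_num
  refine ⟨|(a : ℚ) / b|, ?_⟩
  rw [← h', Real.sqrt_sq_eq_abs]
  push_cast
  rfl

theorem famDc_twelve_ne_zero (H T : ℤ) (h : H ^ 3 - T ^ 2 ≠ 0) : famDc H T 12 ≠ 0 := by
  intro h0
  have h1 : 91125 * H ^ 6 - 193536 * H ^ 3 * T ^ 2 + 102400 * T ^ 4 = 0 := h0
  have h2 : (182250 * H ^ 3 - 193536 * T ^ 2) ^ 2 = 11 * (3456 * T ^ 2) ^ 2 := by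
    linear_combination 364500 * h1
  have h3 := poly_sq_eq_eleven_mul_sq _ _ h2
  have hT : T = 0 := by
    have : T ^ 2 = 0 := by omega
    exact pow_eq_zero_iff (two_ne_zero) |>.mp this
  subst hT
  have hH : H ^ 6 = 0 := by
    have : 91125 * H ^ 6 = 0 := by linear_combination h1
    omega
  have hH0 : H = 0 := pow_eq_zero_iff (by norm_num) |>.mp hH
  subst hH0
  exact h (by norm_num)

end Fermat.Agent.S52
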