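import Fermat.Agent.S52.Irred3.Hit
import Fermat.Agent.S52.Irred3.NoPolyRoot
import Fermat.Agent.S52.Irred3.FamGeom
import Fermat.Agent.S52.Irred3.Poly

/-!
# S52, NODE D: irreducibility of the mod 3 representation for a suitable member of the family

Assembly of `hit_abstract` (D6), `no_poly_root` (D7) and the geometry of the family (D9).
-/

set_option autoImplicit false
open Polynomial

namespace Fermat.Agent.S52

theorem nodeD_map_quartic {R S : Type*} [CommRing R] [CommRing S] (f : R →+* S) (a b z : R) :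
    f (quartic a b z) = quartic (f a) (f b) (f z) := by
  simp only [quartic, map_sub, map_mul, map_pow, map_ofNat]

/-- no polynomial root of the quartic of the family, over `ℚ`. -/
theorem nodeD_no_root (c4 c6 : ℤ) (hΔ : c4 ^ 3 - c6 ^ 2 ≠ 0) (Q : ℚ[X]) :
    quartic ((polyA c4 (-c6)).map (Int.castRingHom ℚ))
      ((-polyB c4 (-c6)).map (Int.castRingHom ℚ)) Q ≠ 0 := by
  intro h0
  set k := AlgebraicClosure ℚ with hk
  set f : ℚ →+* k := algebraMap ℚ k with hf
  set g : ℤ →+* k := Int.castRingHom k with hg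
  have hginj : Function.Injective g := Int.cast_injective
  have hfg : f.comp (Int.castRingHom ℚ) = g := RingHom.ext_int _ _
  set H : k := g c4 with hH
  set T : k := g (-c6) with hT
  have h30 : (30 : k) ≠ 0 := by norm_num
  have hHT : H ^ 3 - T ^ 2 ≠ 0 := by
    rw [hH, hT, ← map_pow, ← map_pow, ← map_sub, neg_sq]
    exact fun h => hΔ ((map_eq_zero_iff g hginj).1 h)
  have hD12 : famDc H T 12 ≠ 0 := by
    rw [hH, hT, ← map_famDc]
    intro h
    exact famDc_twelve_ne_zero c4 (-c6) (by rwa [neg_sq]) ((map_eq_zero_iff g hginj).1 h)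
  have hG : 4 ≤ (polyD H T).natDegree := by
    have : 12 ≤ (polyD H T).natDegree := by
      apply le_natDegree_of_ne_zero
      rw [polyD_coeff]
      exact hD12
    omega
  have key := no_poly_root (polyA H T) (-polyB H T) (polyD H T) (H ^ 3 - T ^ 2) hHT
    (by rw [neg_sq]; exact fam_disc h30 H T hHT)
    (fun t ht => fam_sep h30 H T hHT t ht)
    (fun t ht => by
      rw [polyA_eval]
      rw [polyD_eval] at ht
      exact fam_cop h30 H T hHT t ht)
    (polyA_natDegree_le H T) hG (Q.map f)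
  apply key
  have h1 := congrArg (mapRingHom f) h0
  rw [nodeD_map_quartic, _root_.map_zero] at h1
  simp only [coe_mapRingHom, Polynomial.map_map, hfg, Polynomial.map_neg, polyA_map,
    polyB_map] at h1
  exact h1

/-- NODE D. -/
theorem nodeD (c4 c6 M : ℤ) (hΔ : c4 ^ 3 - c6 ^ 2 ≠ 0) (hM : M ≠ 0) :
    ∃ n : ℤ, ∀ Z : ℚ,
      quartic ((famA c4 (-c6) (M * n) : ℤ) : ℚ) ((-famB c4 (-c6) (M * n) : ℤ) : ℚ) Z ≠ 0 := by
  have hlead : (polyA c4 (-c6)).coeff 20 ^ 3 ≠ (-polyB c4 (-c6)).coeff 30 ^ 2 := by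
    rw [coeff_neg, neg_sq, polyA_coeff, polyB_coeff]
    intro h
    have h1 := fam_lead c4 (-c6)
    rw [h, sub_self] at h1
    have h2 : (c4 ^ 3 - (-c6) ^ 2) ≠ 0 := by rwa [neg_sq]
    exact mul_ne_zero h2 (pow_ne_zero 5 (famDc_twelve_ne_zero c4 (-c6) h2)) h1.symm
  obtain ⟨n, hn⟩ := hit_abstract (polyA c4 (-c6)) (-polyB c4 (-c6)) (polyA_natDegree_le _ _)
    (by rw [natDegree_neg]; exact polyB_natDegree_le _ _) hlead (nodeD_no_root c4 c6 hΔ) M hM
  refine ⟨n, fun Z => ?_⟩
  have := hn Z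
  rwa [eval_neg, polyA_eval, polyB_eval] at this

end Fermat.Agent.S52
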