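import Fermat.Agent.S52.Interface
import Fermat.Agent.S51.Defs

/-!
# S52: a rational root of `ψ₃` gives a rational root of the quartic in `c₄, c₆`
-/

set_option autoImplicit false

namespace Fermat.Agent.S52

theorem quartic_eq_psi3 (W : WeierstrassCurve ℤ) (r : ℚ) :
    quartic (W.c₄ : ℚ) (W.c₆ : ℚ) (12 * r + W.b₂) =
      6912 * Fermat.Agent.S51.psi3 (W.b₂ : ℚ) (W.b₄ : ℚ) (W.b₆ : ℚ) (W.b₈ : ℚ) r := by
  have hrel : (4 : ℚ) * W.b₈ = W.b₂ * W.b₆ - (W.b₄ : ℚ) ^ 2 := by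
    exact_mod_cast W.b_relation
  have hc4 : (W.c₄ : ℚ) = (W.b₂ : ℚ) ^ 2 - 24 * W.b₄ := by
    simp [WeierstrassCurve.c₄]
  have hc6 : (W.c₆ : ℚ) = -(W.b₂ : ℚ) ^ 3 + 36 * W.b₂ * W.b₄ - 216 * W.b₆ := by
    simp [WeierstrassCurve.c₆]
  rw [hc4, hc6]
  unfold quartic Fermat.Agent.S51.psi3
  linear_combination (-1728 : ℚ) * hrel

theorem quartic_of_psi3 (W : WeierstrassCurve ℤ) (r : ℚ)
    (h : Fermat.Agent.S51.psi3 (W.b₂ : ℚ) (W.b₄ : ℚ) (W.b₆ : ℚ) (W.b₈ : ℚ) r = 0) :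
    quartic (W.c₄ : ℚ) (W.c₆ : ℚ) (12 * r + W.b₂) = 0 := by
  rw [quartic_eq_psi3, h, mul_zero]

end Fermat.Agent.S52
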