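import Fermat.Agent.S52.Interface

/-!
# S52, NODE D: shared definitions

`polyA`, `polyB`, `polyD` are `famA`, `famB`, `famD` as polynomials in the parameter `t`;
`quarticD` is the derivative of `quartic` in its last variable.
-/

set_option autoImplicit false
open Polynomial

namespace Fermat.Agent.S52

section Poly

variable {R : Type*} [CommRing R]

/-- `famA H T t` as a polynomial in `t`. -/
noncomputable def polyA (H T : R) : R[X] := famA (C H) (C T) X

/-- `famB H T t` as a polynomial in `t`. -/
noncomputable def polyB (H T : R) : R[X] := famB (C H) (C T) X

/-- `famD H T t` as a polynomial in `t`. -/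
noncomputable def polyD (H T : R) : R[X] := famD (C H) (C T) X

/-- derivative of `quartic` in `Z`. -/
def quarticD (c4 c6 Z : R) : R := 4 * Z ^ 3 - 12 * c4 * Z - 8 * c6

end Poly

end Fermat.Agent.S52
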