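import Fermat.Agent.S52.Irred3.Defs

/-!
# S52, NODE D9: geometry of the family (core arguments)

The three statements `fam_disc`, `fam_sep`, `fam_cop` are proved here for a pair `(u, v)` with
`kH u v = H`, `kT u v = T`, the line identities and the coprimality lemmas being hypotheses.
The final statements are in `FamGeom.lean`.
-/

set_option autoImplicit false
open Polynomial

namespace Fermat.Agent.S52

section Maps

variable {R S : Type*} [CommRing R] [CommRing S] (f : R →+* S)

theorem famGeom_map_kf (u v : R) : f (kf u v) = kf (f u) (f v) := by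
  simp only [kf, map_add, map_sub, map_mul, map_pow, map_ofNat]

theorem famGeom_map_kfu (u v : R) : f (kfu u v) = kfu (f u) (f v) := by
  simp only [kfu, map_add, map_sub, map_mul, map_pow, map_ofNat]

theorem famGeom_map_kfv (u v : R) : f (kfv u v) = kfv (f u) (f v) := by
  simp only [kfv, map_add, map_sub, map_mul, map_pow, map_ofNat]

theorem famGeom_map_kH (u v : R) : f (kH u v) = kH (f u) (f v) := by
  simp only [kH, map_add, map_sub, map_mul, map_pow, map_ofNat]

theorem famGeom_map_kT (u v : R) : f (kT u v) = kT (f u) (f v) := by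
  simp only [kT, map_add, map_sub, map_mul, map_pow, map_ofNat]

theorem famGeom_map_lineU (u v t : R) : f (lineU u v t) = lineU (f u) (f v) (f t) := by
  simp only [lineU, map_add, map_mul, famGeom_map_kfv]

theorem famGeom_map_lineV (u v t : R) : f (lineV u v t) = lineV (f u) (f v) (f t) := by
  simp only [lineV, map_sub, map_mul, famGeom_map_kfu]

theorem famGeom_polyA_eval (H T t : R) : (polyA H T).eval t = famA H T t := by
  have h := map_famA (evalRingHom t) (C H) (C T) X
  simpa [polyA] using h

theorem famGeom_polyD_eval (H T t : R) : (polyD H T).eval t = famD H T t := by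
  have h := map_famD (evalRingHom t) (C H) (C T) X
  simpa [polyD] using h

/-- chain rule for `kf`. -/
theorem famGeom_derivative_kf (U V : R[X]) :
    derivative (kf U V) = kfu U V * derivative U + kfv U V * derivative V := by
  unfold kf kfu kfv
  simp only [derivative_mul, derivative_add, derivative_sub, derivative_pow, derivative_ofNat,
    Nat.cast_ofNat, map_ofNat]
  norm_num
  ring

end Maps

section Core

variable {k : Type*} [Field k]

theorem famGeom_two_ne_zero (h30 : (30 : k) ≠ 0) : (2 : k) ≠ 0 := by
  intro h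
  apply h30
  have : (30 : k) = 2 * 15 := by norm_num
  rw [this, h, zero_mul]

theorem famGeom_three_ne_zero (h30 : (30 : k) ≠ 0) : (3 : k) ≠ 0 := by
  intro h
  apply h30
  have : (30 : k) = 3 * 10 := by norm_num
  rw [this, h, zero_mul]

theorem famGeom_five_ne_zero (h30 : (30 : k) ≠ 0) : (5 : k) ≠ 0 := by
  intro h
  apply h30
  have : (30 : k) = 5 * 6 := by norm_num
  rw [this, h, zero_mul]

theorem famGeom_twelve_ne_zero (h30 : (30 : k) ≠ 0) : (12 : k) ≠ 0 := by
  have h2 := famGeom_two_ne_zero h30
  have h3 := famGeom_three_ne_zero h30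
  have : (12 : k) = 2 * 2 * 3 := by norm_num
  rw [this]
  exact mul_ne_zero (mul_ne_zero h2 h2) h3

theorem famGeom_kf_ne_zero (u v : k) (h : kH u v ^ 3 - kT u v ^ 2 ≠ 0) : kf u v ≠ 0 := by
  intro h0
  apply h
  rw [klein_relation, h0]
  ring

/-- the line never passes through the origin. -/
theorem famGeom_line_ne_zero (h30 : (30 : k) ≠ 0) (u v t : k) (hf : kf u v ≠ 0) :
    ¬ (lineU u v t = 0 ∧ lineV u v t = 0) := by
  rintro ⟨hU, hV⟩
  have h12 := famGeom_twelve_ne_zero h30
  have he := euler_kf u v
  have : 12 * kf u v = lineU u v t * kfu u v + lineV u v t * kfv u v := by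
    rw [← he]; unfold lineU lineV; ring
  rw [hU, hV] at this
  have h0 : 12 * kf u v = 0 := by rw [this]; ring
  exact (mul_ne_zero h12 hf) h0

/-- D9a, core. -/
theorem famGeom_disc_core (u v : k)
    (hH : ∀ a b t : k[X], kH (lineU a b t) (lineV a b t) = famA (kH a b) (kT a b) t)
    (hT : ∀ a b t : k[X], kT (lineU a b t) (lineV a b t) = famB (kH a b) (kT a b) t)
    (hF : ∀ a b t : k[X], kf (lineU a b t) (lineV a b t) = kf a b * famD (kH a b) (kT a b) t) :
    polyA (kH u v) (kT u v) ^ 3 - polyB (kH u v) (kT u v) ^ 2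
      = C (kH u v ^ 3 - kT u v ^ 2) * polyD (kH u v) (kT u v) ^ 5 := by
  have e1 : kH (C u) (C v) = (C (kH u v) : k[X]) := (famGeom_map_kH C u v).symm
  have e2 : kT (C u) (C v) = (C (kT u v) : k[X]) := (famGeom_map_kT C u v).symm
  have e3 : kf (C u) (C v) = (C (kf u v) : k[X]) := (famGeom_map_kf C u v).symm
  have h1 := hH (C u) (C v) X
  have h2 := hT (C u) (C v) X
  have h3 := hF (C u) (C v) X
  rw [e1, e2] at h1 h2 h3
  rw [e3] at h3
  have hk := klein_relation (lineU (C u) (C v) (X : k[X])) (lineV (C u) (C v) X)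
  rw [h1, h2, h3] at hk
  unfold polyA polyB polyD
  rw [hk, klein_relation u v]
  simp only [map_mul, map_neg, map_pow, map_ofNat]
  ring

/-- D9c, core. -/
theorem famGeom_cop_core (h30 : (30 : k) ≠ 0) (u v t : k)
    (h : kH u v ^ 3 - kT u v ^ 2 ≠ 0)
    (hH : ∀ a b t : k, kH (lineU a b t) (lineV a b t) = famA (kH a b) (kT a b) t)
    (hF : ∀ a b t : k, kf (lineU a b t) (lineV a b t) = kf a b * famD (kH a b) (kT a b) t)
    (hK3 : ∀ a b : k, kf a b = 0 → kH a b = 0 → a = 0 ∧ b = 0)
    (h0 : famD (kH u v) (kT u v) t = 0) : famA (kH u v) (kT u v) t ≠ 0 := by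
  intro hA
  have hf := famGeom_kf_ne_zero u v h
  apply famGeom_line_ne_zero h30 u v t hf
  apply hK3
  · rw [hF, h0, mul_zero]
  · rw [hH, hA]

/-- D9b, core. -/
theorem famGeom_sep_core (h30 : (30 : k) ≠ 0) (u v t : k)
    (h : kH u v ^ 3 - kT u v ^ 2 ≠ 0)
    (hF : ∀ a b t : k[X], kf (lineU a b t) (lineV a b t) = kf a b * famD (kH a b) (kT a b) t)
    (hK4 : ∀ a b : k, kfu a b = 0 → kfv a b = 0 → a = 0 ∧ b = 0)
    (h0 : (polyD (kH u v) (kT u v)).eval t = 0) :
    (polyD (kH u v) (kT u v)).derivative.eval t ≠ 0 := by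
  intro h1
  have hf := famGeom_kf_ne_zero u v h
  have h12 := famGeom_twelve_ne_zero h30
  have e1 : kH (C u) (C v) = (C (kH u v) : k[X]) := (famGeom_map_kH C u v).symm
  have e2 : kT (C u) (C v) = (C (kT u v) : k[X]) := (famGeom_map_kT C u v).symm
  have e3 : kf (C u) (C v) = (C (kf u v) : k[X]) := (famGeom_map_kf C u v).symm
  have h3 := hF (C u) (C v) X
  rw [e1, e2, e3] at h3
  change _ = C (kf u v) * polyD (kH u v) (kT u v) at h3
  -- evaluation of the line
  have evU : (lineU (C u) (C v) (X : k[X])).eval t = lineU u v t := by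
    have := famGeom_map_lineU (evalRingHom t) (C u) (C v) X
    simpa using this
  have evV : (lineV (C u) (C v) (X : k[X])).eval t = lineV u v t := by
    have := famGeom_map_lineV (evalRingHom t) (C u) (C v) X
    simpa using this
  -- value of `kf` on the line at `t`
  have hval : kf (lineU u v t) (lineV u v t) = 0 := by
    have := congrArg (eval t) h3
    rw [eval_mul, h0, mul_zero] at this
    have h' := famGeom_map_kf (evalRingHom t) (lineU (C u) (C v) (X : k[X])) (lineV (C u) (C v) X)
    simp only [coe_evalRingHom] at h'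
    rw [evU, evV] at h'
    rw [← h', this]
  -- derivative
  have dU : derivative (lineU (C u) (C v) (X : k[X])) = C (kfv u v) := by
    unfold lineU
    rw [← famGeom_map_kfv C u v]
    simp
  have dV : derivative (lineV (C u) (C v) (X : k[X])) = - C (kfu u v) := by
    unfold lineV
    rw [← famGeom_map_kfu C u v]
    simp
  have hder := congrArg derivative h3
  rw [famGeom_derivative_kf, dU, dV, derivative_C_mul] at hder
  have hder' := congrArg (eval t) hder
  rw [eval_mul, h1, mul_zero, eval_add, eval_mul, eval_mul, eval_neg, eval_C, eval_C] at hder'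
  have hp := famGeom_map_kfu (evalRingHom t) (lineU (C u) (C v) (X : k[X])) (lineV (C u) (C v) X)
  have hq := famGeom_map_kfv (evalRingHom t) (lineU (C u) (C v) (X : k[X])) (lineV (C u) (C v) X)
  simp only [coe_evalRingHom] at hp hq
  rw [evU, evV] at hp hq
  rw [hp, hq] at hder'
  -- linear system
  set U0 := lineU u v t with hU0
  set V0 := lineV u v t with hV0
  set p := kfu U0 V0 with hp0
  set q := kfv U0 V0 with hq0
  have heul : U0 * p + V0 * q = 0 := by
    rw [hp0, hq0, euler_kf, hval, mul_zero]
  have hdet : U0 * kfu u v + V0 * kfv u v = 12 * kf u v := by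
    rw [← euler_kf u v, hU0, hV0]; unfold lineU lineV; ring
  have hd : (12 * kf u v) ≠ 0 := mul_ne_zero h12 hf
  have hp00 : p = 0 := by
    have : (12 * kf u v) * p = 0 := by
      rw [← hdet]
      linear_combination (kfu u v) * heul + V0 * hder'
    exact (mul_eq_zero.mp this).resolve_left hd
  have hq00 : q = 0 := by
    have : (12 * kf u v) * q = 0 := by
      rw [← hdet]
      linear_combination (kfv u v) * heul - U0 * hder'
    exact (mul_eq_zero.mp this).resolve_left hd
  exact famGeom_line_ne_zero h30 u v t hf (hK4 U0 V0 hp00 hq00)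

end Core

end Fermat.Agent.S52
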