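import Fermat.Agent.S52.Irred3.Defs

/-!
# S52, NODE D3a: roots of the perturbed quartic almost satisfy the unperturbed one
(owner helper220)
-/

set_option autoImplicit false
open Polynomial

namespace Fermat.Agent.S52

/-- a polynomial is bounded on the closed unit ball. -/
theorem perturb_exists_bound (a : ℂ[X]) : ∃ C : ℝ, 0 ≤ C ∧ ∀ s : ℂ, ‖s‖ ≤ 1 → ‖a.eval s‖ ≤ C := by
  obtain ⟨C, hC⟩ := (isCompact_closedBall (0 : ℂ) 1).exists_bound_of_continuousOn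
    (f := fun s => a.eval s) a.continuous.continuousOn
  refine ⟨max C 0, le_max_right _ _, fun s hs => (hC s ?_).trans (le_max_left _ _)⟩
  simpa using hs

/-- bound for the roots of the quartic. -/
theorem perturb_root_bound {α β w : ℂ} {Ca Cb : ℝ} (hα : ‖α‖ ≤ Ca) (hβ : ‖β‖ ≤ Cb)
    (h : quartic α β w = 0) : ‖w‖ ≤ 1 + 6 * Ca + 8 * Cb + 3 * Ca ^ 2 := by
  have hCa : 0 ≤ Ca := (norm_nonneg _).trans hα
  have hCb : 0 ≤ Cb := (norm_nonneg _).trans hβ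
  by_contra hcon
  push Not at hcon
  set x := ‖w‖ with hx
  have hx1 : 1 ≤ x := by nlinarith
  have h4 : w ^ 4 = 6 * α * w ^ 2 + 8 * β * w + 3 * α ^ 2 := by
    unfold quartic at h; linear_combination h
  have h5 : x ^ 4 ≤ 6 * Ca * x ^ 2 + 8 * Cb * x + 3 * Ca ^ 2 := by
    have : ‖w ^ 4‖ ≤ ‖6 * α * w ^ 2‖ + ‖8 * β * w‖ + ‖3 * α ^ 2‖ := by
      rw [h4]; exact norm_add₃_le
    simp only [norm_mul, norm_pow, Complex.norm_ofNat] at this
    have e1 : ‖α‖ * x ^ 2 ≤ Ca * x ^ 2 := mul_le_mul_of_nonneg_right hα (by positivity)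
    have e2 : ‖β‖ * x ≤ Cb * x := mul_le_mul_of_nonneg_right hβ (by positivity)
    have e3 : ‖α‖ ^ 2 ≤ Ca ^ 2 := pow_le_pow_left₀ (norm_nonneg _) hα 2
    nlinarith
  have hx2 : x ^ 2 ≤ x ^ 3 := pow_le_pow_right₀ hx1 (by norm_num)
  have hx3 : x ≤ x ^ 3 := by
    calc x = x ^ 1 := (pow_one x).symm
      _ ≤ x ^ 3 := pow_le_pow_right₀ hx1 (by norm_num)
  have hx4 : 1 ≤ x ^ 3 := one_le_pow₀ hx1
  have h6 : x ^ 4 ≤ (6 * Ca + 8 * Cb + 3 * Ca ^ 2) * x ^ 3 := by nlinarith [sq_nonneg Ca]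
  have h7 : x ≤ 6 * Ca + 8 * Cb + 3 * Ca ^ 2 := by
    have hpos : 0 < x ^ 3 := by positivity
    have : x * x ^ 3 ≤ (6 * Ca + 8 * Cb + 3 * Ca ^ 2) * x ^ 3 := by
      calc x * x ^ 3 = x ^ 4 := by ring
        _ ≤ _ := h6
    exact le_of_mul_le_mul_right this hpos
  linarith

/-- D3a : roots of the perturbed quartic almost satisfy the unperturbed one. -/
theorem quartic_perturb (a b : ℂ[X]) (ε : ℝ) (hε : 0 < ε) :
    ∃ δ : ℝ, 0 < δ ∧ ∀ s w : ℂ, ‖s‖ < δ → quartic (a.eval s) (b.eval s) w = 0 →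
      ‖quartic (a.eval 0) (b.eval 0) w‖ < ε := by
  obtain ⟨Ca, hCa0, hCa⟩ := perturb_exists_bound a
  obtain ⟨Cb, hCb0, hCb⟩ := perturb_exists_bound b
  set Bd : ℝ := 1 + 6 * Ca + 8 * Cb + 3 * Ca ^ 2 with hBd
  have hBd0 : 0 ≤ Bd := by positivity
  -- the error function
  let φ : ℂ → ℝ := fun s => 6 * ‖a.eval s - a.eval 0‖ * Bd ^ 2 + 8 * ‖b.eval s - b.eval 0‖ * Bd
    + 3 * ‖a.eval s ^ 2 - a.eval 0 ^ 2‖
  have hφc : Continuous φ := by
    have ha : Continuous fun s : ℂ => a.eval s := a.continuous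
    have hb : Continuous fun s : ℂ => b.eval s := b.continuous
    fun_prop
  have hφ0 : φ 0 = 0 := by simp [φ]
  obtain ⟨δ₁, hδ₁, hδφ⟩ := Metric.continuous_iff.1 hφc 0 ε hε
  refine ⟨min δ₁ 1, lt_min hδ₁ one_pos, fun s w hs hw => ?_⟩
  have hs1 : ‖s‖ ≤ 1 := (hs.trans_le (min_le_right _ _)).le
  have hsδ : dist s 0 < δ₁ := by
    rw [dist_zero_right]; exact hs.trans_le (min_le_left _ _)
  have hwB : ‖w‖ ≤ Bd := perturb_root_bound (hCa s hs1) (hCb s hs1) hw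
  have hφs : φ s < ε := by
    have := hδφ s hsδ
    rw [hφ0, Real.dist_eq, sub_zero] at this
    exact (le_abs_self _).trans_lt this
  refine lt_of_le_of_lt ?_ hφs
  have heq : quartic (a.eval 0) (b.eval 0) w = 6 * (a.eval s - a.eval 0) * w ^ 2
      + 8 * (b.eval s - b.eval 0) * w + 3 * (a.eval s ^ 2 - a.eval 0 ^ 2) := by
    unfold quartic at hw ⊢; linear_combination hw
  rw [heq]
  refine (norm_add₃_le).trans ?_
  simp only [norm_mul, norm_pow, Complex.norm_ofNat, φ]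
  have e1 : ‖w‖ ^ 2 ≤ Bd ^ 2 := pow_le_pow_left₀ (norm_nonneg _) hwB 2
  have e2 : 6 * ‖a.eval s - a.eval 0‖ * ‖w‖ ^ 2 ≤ 6 * ‖a.eval s - a.eval 0‖ * Bd ^ 2 :=
    mul_le_mul_of_nonneg_left e1 (by positivity)
  have e3 : 8 * ‖b.eval s - b.eval 0‖ * ‖w‖ ≤ 8 * ‖b.eval s - b.eval 0‖ * Bd :=
    mul_le_mul_of_nonneg_left hwB (by positivity)
  linarith

end Fermat.Agent.S52
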