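import Fermat.Agent.S52.Irred3.Newton
import Fermat.Agent.S52.Irred3.Perturb

/-!
# S52, NODE D3b: a root close to `lam 0` is very close to `lam s` (owner helper220)
-/

set_option autoImplicit false
open Polynomial

namespace Fermat.Agent.S52

/-- the divided difference of the quartic. -/
def finePsi {R : Type*} [CommRing R] (c4 c6 w l : R) : R :=
  w ^ 3 + w ^ 2 * l + w * l ^ 2 + l ^ 3 - 6 * c4 * (w + l) - 8 * c6

theorem fine_factor {R : Type*} [CommRing R] (c4 c6 w l : R) :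
    quartic c4 c6 w - quartic c4 c6 l = (w - l) * finePsi c4 c6 w l := by
  unfold quartic finePsi; ring

theorem finePsi_self {R : Type*} [CommRing R] (c4 c6 l : R) :
    finePsi c4 c6 l l = quarticD c4 c6 l := by
  unfold quarticD finePsi; ring

/-- D3b : a root close to `lam 0` is very close to `lam s`. -/
theorem quartic_fine (a b lam : ℂ[X]) (N : ℕ) (hdvd : X ^ (N + 1) ∣ quartic a b lam)
    (h1 : quarticD (a.eval 0) (b.eval 0) (lam.eval 0) ≠ 0) :
    ∃ C δ : ℝ, 0 < δ ∧ ∀ s w : ℂ, ‖s‖ < δ → ‖w - lam.eval 0‖ < δ →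
      quartic (a.eval s) (b.eval s) w = 0 → ‖w - lam.eval s‖ ≤ C * ‖s‖ ^ (N + 1) := by
  obtain ⟨rho, hrho⟩ := hdvd
  obtain ⟨Cr, hCr0, hCr⟩ := perturb_exists_bound rho
  let G : ℂ × ℂ → ℂ := fun x => finePsi (a.eval x.1) (b.eval x.1) x.2 (lam.eval x.1)
  have hG : Continuous G := by
    have ha : Continuous fun s : ℂ => a.eval s := a.continuous
    have hb : Continuous fun s : ℂ => b.eval s := b.continuous
    have hl : Continuous fun s : ℂ => lam.eval s := lam.continuous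
    unfold G finePsi
    fun_prop
  have hG0 : G (0, lam.eval 0) = quarticD (a.eval 0) (b.eval 0) (lam.eval 0) := finePsi_self _ _ _
  set c0 : ℝ := ‖G (0, lam.eval 0)‖ with hc0
  have hc0pos : 0 < c0 := by rw [hc0, hG0]; exact norm_pos_iff.2 h1
  obtain ⟨δ₁, hδ₁, hδG⟩ := Metric.continuous_iff.1 hG (0, lam.eval 0) (c0 / 2) (by positivity)
  refine ⟨2 * Cr / c0, min δ₁ 1, lt_min hδ₁ one_pos, fun s w hs hw hroot => ?_⟩
  have hs1 : ‖s‖ ≤ 1 := (hs.trans_le (min_le_right _ _)).le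
  have hdist : dist (s, w) (0, lam.eval 0) < δ₁ := by
    rw [Prod.dist_eq, max_lt_iff, dist_zero_right, dist_eq_norm]
    exact ⟨hs.trans_le (min_le_left _ _), hw.trans_le (min_le_left _ _)⟩
  have hGlow : c0 / 2 ≤ ‖G (s, w)‖ := by
    have h2 := hδG (s, w) hdist
    rw [dist_eq_norm] at h2
    have h3 : c0 ≤ ‖G (s, w)‖ + ‖G (s, w) - G (0, lam.eval 0)‖ := by
      rw [hc0, ← norm_neg (G (s, w) - G (0, lam.eval 0))]
      calc ‖G (0, lam.eval 0)‖ = ‖G (s, w) + -(G (s, w) - G (0, lam.eval 0))‖ := by congr 1; ring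
        _ ≤ _ := norm_add_le _ _
    linarith
  have hev : quartic (a.eval s) (b.eval s) (lam.eval s) = s ^ (N + 1) * rho.eval s := by
    rw [← newton_eval_quartic, hrho]; simp
  have hfac := fine_factor (a.eval s) (b.eval s) w (lam.eval s)
  rw [hroot, hev, zero_sub] at hfac
  have hnorm : ‖w - lam.eval s‖ * ‖G (s, w)‖ = ‖s‖ ^ (N + 1) * ‖rho.eval s‖ := by
    rw [← norm_mul, ← hfac, norm_neg, norm_mul, norm_pow]
  have hle : ‖w - lam.eval s‖ * (c0 / 2) ≤ ‖s‖ ^ (N + 1) * Cr := by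
    calc ‖w - lam.eval s‖ * (c0 / 2) ≤ ‖w - lam.eval s‖ * ‖G (s, w)‖ :=
          mul_le_mul_of_nonneg_left hGlow (norm_nonneg _)
      _ = ‖s‖ ^ (N + 1) * ‖rho.eval s‖ := hnorm
      _ ≤ ‖s‖ ^ (N + 1) * Cr := mul_le_mul_of_nonneg_left (hCr s hs1) (by positivity)
  have : ‖w - lam.eval s‖ = ‖w - lam.eval s‖ * (c0 / 2) * (2 / c0) := by field_simp
  rw [this]
  calc ‖w - lam.eval s‖ * (c0 / 2) * (2 / c0) ≤ ‖s‖ ^ (N + 1) * Cr * (2 / c0) :=
        mul_le_mul_of_nonneg_right hle (by positivity)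
    _ = 2 * Cr / c0 * ‖s‖ ^ (N + 1) := by ring

end Fermat.Agent.S52
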