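/-
S52 node D5 (task S52-D5, helper38): Lagrange interpolation + integrality.
Integers that are `C/|t|`-close to the values of a complex polynomial of degree `≤ 10` at the
points `t = M n` of a short window far away are the values of a rational polynomial.
-/
import Mathlib

set_option autoImplicit false
open Polynomial

namespace Fermat.Agent.S52

/-- The divided difference of `f` at the nodes `x i`, `i ∈ s`. -/
noncomputable def interpDD {F : Type*} [Field F] (s : Finset ℤ) (x : ℤ → ℤ) (f : ℤ → F) : F :=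
  ∑ i ∈ s, f i / ∏ j ∈ s.erase i, ((x i : F) - (x j : F))

/-- A common denominator of the divided difference. -/
def interpDen (s : Finset ℤ) (x : ℤ → ℤ) : ℤ := ∏ i ∈ s, ∏ j ∈ s.erase i, (x i - x j)

theorem interp_inner_ne_zero (s : Finset ℤ) (x : ℤ → ℤ) (hx : Set.InjOn x s) {i : ℤ}
    (hi : i ∈ s) : ∏ j ∈ s.erase i, (x i - x j) ≠ 0 := by
  rw [Finset.prod_ne_zero_iff]
  intro j hj
  have hne : x i ≠ x j := fun h =>
    (Finset.ne_of_mem_erase hj) (hx (Finset.mem_of_mem_erase hj) hi h.symm)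
  exact sub_ne_zero.mpr hne

theorem interpDen_ne_zero (s : Finset ℤ) (x : ℤ → ℤ) (hx : Set.InjOn x s) :
    interpDen s x ≠ 0 := by
  unfold interpDen
  rw [Finset.prod_ne_zero_iff]
  intro i hi
  exact interp_inner_ne_zero s x hx hi

theorem interp_den_mul_dd (s : Finset ℤ) (x z : ℤ → ℤ) (hx : Set.InjOn x s) :
    ∃ m : ℤ, (interpDen s x : ℚ) * interpDD s x (fun i => (z i : ℚ)) = m := by
  refine ⟨∑ i ∈ s, z i * ∏ i' ∈ s.erase i, ∏ j ∈ s.erase i', (x i' - x j), ?_⟩
  unfold interpDD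
  rw [Finset.mul_sum]
  push_cast
  refine Finset.sum_congr rfl fun i hi => ?_
  have hp : (∏ j ∈ s.erase i, ((x i : ℚ) - (x j : ℚ))) ≠ 0 := by
    have := interp_inner_ne_zero s x hx hi
    exact_mod_cast this
  have hden : (interpDen s x : ℚ) = (∏ j ∈ s.erase i, ((x i : ℚ) - (x j : ℚ))) *
      ∏ i' ∈ s.erase i, ∏ j ∈ s.erase i', ((x i' : ℚ) - (x j : ℚ)) := by
    unfold interpDen
    push_cast
    rw [Finset.mul_prod_erase s (fun i' => ∏ j ∈ s.erase i', ((x i' : ℚ) - (x j : ℚ))) hi]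
  rw [hden]
  field_simp

theorem interp_abs_den_le (s : Finset ℤ) (x : ℤ → ℤ) (B : ℤ)
    (hB : ∀ i ∈ s, ∀ j ∈ s, |x i - x j| ≤ B) :
    |interpDen s x| ≤ (B ^ (s.card - 1)) ^ s.card := by
  unfold interpDen
  rw [Finset.abs_prod, ← Finset.prod_const]
  refine Finset.prod_le_prod (fun i _ => abs_nonneg _) fun i hi => ?_
  rw [Finset.abs_prod, ← Finset.card_erase_of_mem hi, ← Finset.prod_const]
  refine Finset.prod_le_prod (fun j _ => abs_nonneg _) fun j hj => ?_
  exact hB i hi j (Finset.mem_of_mem_erase hj)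

theorem interp_norm_dd_le (s : Finset ℤ) (x : ℤ → ℤ) (f : ℤ → ℂ) (ε : ℝ) (hx : Set.InjOn x s)
    (hf : ∀ i ∈ s, ‖f i‖ ≤ ε) : ‖interpDD s x f‖ ≤ s.card * ε := by
  unfold interpDD
  refine (norm_sum_le _ _).trans ?_
  rw [← nsmul_eq_mul]
  refine Finset.sum_le_card_nsmul _ _ _ fun i hi => ?_
  rw [norm_div]
  have h1 : 1 ≤ ‖∏ j ∈ s.erase i, ((x i : ℂ) - (x j : ℂ))‖ := by
    have hcast : ∏ j ∈ s.erase i, ((x i : ℂ) - (x j : ℂ)) =
        ((∏ j ∈ s.erase i, (x i - x j) : ℤ) : ℂ) := by push_cast; rfl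
    rw [hcast, Complex.norm_intCast]
    exact_mod_cast Int.one_le_abs (interp_inner_ne_zero s x hx hi)
  exact (div_le_self (norm_nonneg _) h1).trans (hf i hi)

theorem interp_dd_poly {F : Type*} [Field F] [CharZero F] (s : Finset ℤ) (x : ℤ → ℤ)
    (hx : Set.InjOn x s) (P : F[X]) (hP : P.natDegree + 1 < s.card) :
    interpDD s x (fun i => P.eval (x i : F)) = 0 := by
  have hvs : Set.InjOn (fun i : ℤ => (x i : F)) s := by
    intro a ha b hb hab
    exact hx ha hb (Int.cast_injective hab)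
  have hdeg : P.degree < s.card := by
    refine lt_of_le_of_lt degree_le_natDegree ?_
    exact_mod_cast (by omega : P.natDegree < s.card)
  have h := Lagrange.coeff_eq_sum hvs hdeg
  unfold interpDD
  rw [← h]
  exact coeff_eq_zero_of_natDegree_lt (by omega)

theorem interp_dd_sub {F : Type*} [Field F] (s : Finset ℤ) (x : ℤ → ℤ) (f g : ℤ → F) :
    interpDD s x (fun i => f i - g i) = interpDD s x f - interpDD s x g := by
  unfold interpDD
  rw [← Finset.sum_sub_distrib]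
  refine Finset.sum_congr rfl fun i _ => ?_
  rw [sub_div]

theorem interp_dd_cast (s : Finset ℤ) (x z : ℤ → ℤ) :
    ((interpDD s x (fun i => (z i : ℚ)) : ℚ) : ℂ) = interpDD s x (fun i => (z i : ℂ)) := by
  unfold interpDD
  push_cast
  rfl

theorem interp_dd_eq_zero (P : ℂ[X]) (hP : P.natDegree ≤ 10) (C : ℝ) (L : ℕ) (M : ℤ)
    (hM : M ≠ 0) (n₀ : ℤ)
    (hT : ⌈12 * |C| * (((|M| * L : ℤ) : ℝ) ^ 11) ^ 12⌉ + 1 ≤ n₀)
    (s : Finset ℤ) (hs : s.card = 12) (z : ℤ → ℤ)
    (hS : ∀ n ∈ s, n₀ < n ∧ n ≤ n₀ + L)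
    (hz : ∀ n ∈ s, ‖((z n : ℤ) : ℂ) - P.eval ((M * n : ℤ) : ℂ)‖ ≤ C / ‖((M * n : ℤ) : ℂ)‖) :
    interpDD s (fun n => M * n) (fun i => (z i : ℚ)) = 0 := by
  set x : ℤ → ℤ := fun n => M * n with hxdef
  have hx : Set.InjOn x s := (mul_right_injective₀ hM).injOn
  set B : ℤ := |M| * L with hBdef
  have hB0 : (0 : ℝ) ≤ 12 * |C| * ((B : ℝ) ^ 11) ^ 12 := by
    have : (0 : ℝ) ≤ ((B : ℝ) ^ 11) ^ 12 := by
      rw [← pow_mul]
      exact Even.pow_nonneg (by decide) _
    positivity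
  have hn₀ : 12 * |C| * ((B : ℝ) ^ 11) ^ 12 < (n₀ : ℝ) := by
    have h1 : 12 * |C| * ((B : ℝ) ^ 11) ^ 12 ≤ (⌈12 * |C| * ((B : ℝ) ^ 11) ^ 12⌉ : ℝ) :=
      Int.le_ceil _
    have h2 : ((⌈12 * |C| * ((B : ℝ) ^ 11) ^ 12⌉ + 1 : ℤ) : ℝ) ≤ (n₀ : ℝ) := by exact_mod_cast hT
    push_cast at h2
    linarith
  have hn₀pos : (0 : ℝ) < (n₀ : ℝ) := lt_of_le_of_lt hB0 hn₀
  obtain ⟨m, hm⟩ := interp_den_mul_dd s x z hx
  have hmC : (m : ℂ) = (interpDen s x : ℂ) * interpDD s x (fun i => (z i : ℂ)) := by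
    rw [← interp_dd_cast]
    exact_mod_cast hm.symm
  have hsplit : interpDD s x (fun i => (z i : ℂ)) =
      interpDD s x (fun i => (z i : ℂ) - P.eval (x i : ℂ)) := by
    rw [interp_dd_sub, interp_dd_poly s x hx P (by omega), sub_zero]
  have hε : ∀ i ∈ s, ‖(z i : ℂ) - P.eval (x i : ℂ)‖ ≤ |C| / n₀ := by
    intro i hi
    refine (hz i hi).trans ?_
    have hi0 : n₀ < i := (hS i hi).1
    have hnorm : (n₀ : ℝ) ≤ ‖((M * i : ℤ) : ℂ)‖ := by
      rw [Complex.norm_intCast]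
      have h1 : (1 : ℤ) ≤ |M| := Int.one_le_abs hM
      have hn₀' : (0 : ℤ) < n₀ := by exact_mod_cast hn₀pos
      have h2 : n₀ ≤ |M * i| := by
        rw [abs_mul, abs_of_pos (by omega : (0 : ℤ) < i)]
        nlinarith
      exact_mod_cast h2
    calc C / ‖((M * i : ℤ) : ℂ)‖ ≤ |C| / ‖((M * i : ℤ) : ℂ)‖ := by
          gcongr
          exact le_abs_self C
      _ ≤ |C| / n₀ := by
          gcongr
  have hdd : ‖interpDD s x (fun i => (z i : ℂ))‖ ≤ 12 * (|C| / n₀) := by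
    rw [hsplit]
    have := interp_norm_dd_le s x _ _ hx hε
    rw [hs] at this
    exact_mod_cast this
  have hden : ‖(interpDen s x : ℂ)‖ ≤ ((B : ℝ) ^ 11) ^ 12 := by
    rw [Complex.norm_intCast]
    have h := interp_abs_den_le s x B ?_
    · rw [hs] at h
      exact_mod_cast h
    · intro i hi j hj
      have h1 := hS i hi
      have h2 := hS j hj
      show |M * i - M * j| ≤ |M| * L
      rw [← mul_sub, abs_mul]
      refine mul_le_mul_of_nonneg_left ?_ (abs_nonneg _)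
      rw [abs_le]
      constructor <;> omega
  have hm0 : m = 0 := by
    have hlt : ‖(m : ℂ)‖ < 1 := by
      rw [hmC, norm_mul]
      calc ‖(interpDen s x : ℂ)‖ * ‖interpDD s x (fun i => (z i : ℂ))‖
          ≤ ((B : ℝ) ^ 11) ^ 12 * (12 * (|C| / n₀)) := by
            gcongr
        _ = (12 * |C| * ((B : ℝ) ^ 11) ^ 12) / n₀ := by ring
        _ < 1 := by rw [div_lt_one hn₀pos]; exact hn₀
    rw [Complex.norm_intCast] at hlt
    have : |m| < 1 := by exact_mod_cast hlt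
    exact Int.abs_lt_one_iff.mp this
  rw [hm0, Int.cast_zero] at hm
  have hdne : (interpDen s x : ℚ) ≠ 0 := by exact_mod_cast interpDen_ne_zero s x hx
  exact (mul_eq_zero.mp hm).resolve_left hdne

theorem interp_natDegree_le (v : ℤ → ℚ) (hvinj : Function.Injective v) (r : ℤ → ℚ)
    (s : Finset ℤ) (hs : s.card ≤ 11) : (Lagrange.interpolate s v r).natDegree ≤ 10 := by
  have h := Lagrange.degree_interpolate_lt r (hvinj.injOn (s := s))
  have h2 : (Lagrange.interpolate s v r).degree < (11 : ℕ) :=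
    lt_of_lt_of_le h (by exact_mod_cast hs)
  by_cases h0 : Lagrange.interpolate s v r = 0
  · rw [h0]; simp
  · have := (natDegree_lt_iff_degree_lt h0).mpr h2
    omega

theorem interp_rigidity_aux (M : ℤ) (hM : M ≠ 0) (S : Finset ℤ) (z : ℤ → ℤ)
    (hkey : ∀ s ⊆ S, s.card = 12 → interpDD s (fun n => M * n) (fun i => (z i : ℚ)) = 0) :
    ∃ Q : ℚ[X], Q.natDegree ≤ 10 ∧ ∀ n ∈ S, Q.eval ((M * n : ℤ) : ℚ) = (z n : ℚ) := by
  classical
  obtain ⟨v, hv⟩ : ∃ v : ℤ → ℚ, ∀ n, v n = ((M * n : ℤ) : ℚ) := ⟨_, fun _ => rfl⟩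
  obtain ⟨r, hr⟩ : ∃ r : ℤ → ℚ, ∀ n, r n = (z n : ℚ) := ⟨_, fun _ => rfl⟩
  have hvinj : Function.Injective v := by
    intro a b hab
    rw [hv, hv] at hab
    exact mul_right_injective₀ hM (Int.cast_injective hab)
  simp only [← hv, ← hr]
  by_cases hcard : S.card ≤ 11
  · exact ⟨Lagrange.interpolate S v r, interp_natDegree_le v hvinj r S hcard, fun n hn =>
      Lagrange.eval_interpolate_at_node _ hvinj.injOn hn⟩
  · rw [not_le] at hcard
    obtain ⟨S0, hS0, hc0⟩ := Finset.exists_subset_card_eq hcard.le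
    refine ⟨Lagrange.interpolate S0 v r, interp_natDegree_le v hvinj r S0 hc0.le, ?_⟩
    intro n hn
    by_cases hn0 : n ∈ S0
    · exact Lagrange.eval_interpolate_at_node _ hvinj.injOn hn0
    · have hc1 : (insert n S0).card = 12 := by rw [Finset.card_insert_of_notMem hn0, hc0]
      have hS1S : insert n S0 ⊆ S := Finset.insert_subset hn hS0
      have key := hkey _ hS1S hc1
      obtain ⟨Q1, hQ1⟩ : ∃ Q1, Q1 = Lagrange.interpolate (insert n S0) v r := ⟨_, rfl⟩
      have hev : ∀ i ∈ insert n S0, Q1.eval (v i) = r i := by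
        intro i hi
        rw [hQ1]
        exact Lagrange.eval_interpolate_at_node _ hvinj.injOn hi
      have hdeg : Q1.degree < (12 : ℕ) := by
        have h := Lagrange.degree_interpolate_lt (s := insert n S0) r hvinj.injOn
        rw [hc1] at h
        rw [hQ1]
        exact h
      have hcoeff : Q1.coeff 11 = 0 := by
        have h := Lagrange.coeff_eq_sum (s := insert n S0) (v := v) hvinj.injOn (P := Q1)
          (by rw [hc1]; exact hdeg)
        rw [hc1] at h
        rw [show (12 - 1 : ℕ) = 11 from rfl] at h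
        rw [h, ← key]
        unfold interpDD
        refine Finset.sum_congr rfl fun i hi => ?_
        rw [hev i hi, hr, hv]
        congr 1
        refine Finset.prod_congr rfl fun j _ => ?_
        rw [hv]
      have hdeg' : Q1.degree < (11 : ℕ) := by
        rw [degree_lt_iff_coeff_zero]
        intro m hm
        rcases Nat.eq_or_lt_of_le hm with h | h
        · rw [← h]; exact hcoeff
        · exact (degree_lt_iff_coeff_zero _ _).mp hdeg m h
      have heq : Q1 = Lagrange.interpolate S0 v r := by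
        refine Lagrange.eq_interpolate_of_eval_eq _ hvinj.injOn (by rw [hc0]; exact hdeg') ?_
        intro i hi
        exact hev i (Finset.mem_insert_of_mem hi)
      rw [← heq]
      exact hev n (Finset.mem_insert_self n S0)

/-- D5 : integers that are `C/|t|`-close to the values of a complex polynomial of degree `≤ 10`
at points `t = M n` of a short window far away are the values of a rational polynomial. -/
theorem interp_rigidity (P : ℂ[X]) (hP : P.natDegree ≤ 10) (C : ℝ) (L : ℕ) (M : ℤ)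
    (hM : M ≠ 0) :
    ∃ T : ℤ, ∀ (n₀ : ℤ) (S : Finset ℤ) (z : ℤ → ℤ), T ≤ n₀ →
      (∀ n ∈ S, n₀ < n ∧ n ≤ n₀ + L) →
      (∀ n ∈ S, ‖((z n : ℤ) : ℂ) - P.eval ((M * n : ℤ) : ℂ)‖ ≤ C / ‖((M * n : ℤ) : ℂ)‖) →
      ∃ Q : ℚ[X], Q.natDegree ≤ 10 ∧ ∀ n ∈ S, Q.eval ((M * n : ℤ) : ℚ) = (z n : ℚ) := by
  refine ⟨⌈12 * |C| * (((|M| * L : ℤ) : ℝ) ^ 11) ^ 12⌉ + 1, ?_⟩
  intro n₀ S z hT hS hz
  refine interp_rigidity_aux M hM S z fun s hsS hs => ?_
  exact interp_dd_eq_zero P hP C L M hM n₀ hT s hs z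
    (fun k hk => hS k (hsS hk)) (fun k hk => hz k (hsS hk))

end Fermat.Agent.S52
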