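import Fermat.Agent.S52.Irred3.Roots
import Fermat.Agent.S52.Irred3.Fine

/-!
# S52, NODE D3: localisation of the roots in the coordinates `s = 1/t`, `w = z / t^10`
(owner helper220)
-/

set_option autoImplicit false
open Polynomial

namespace Fermat.Agent.S52

theorem locsw_exists_pos_le (Ξ : Finset ℂ) (δ : ℂ → ℝ) (h : ∀ ξ, 0 < δ ξ) :
    ∃ d : ℝ, 0 < d ∧ ∀ ξ ∈ Ξ, d ≤ δ ξ := by
  classical
  induction Ξ using Finset.induction_on with
  | empty => exact ⟨1, one_pos, by simp⟩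
  | insert x s hx ih =>
    obtain ⟨d, hd, hds⟩ := ih
    refine ⟨min d (δ x), lt_min hd (h x), fun ξ hξ => ?_⟩
    rcases Finset.mem_insert.1 hξ with rfl | h'
    · exact min_le_right _ _
    · exact (min_le_left _ _).trans (hds ξ h')

theorem locsw_exists_ge (Ξ : Finset ℂ) (C : ℂ → ℝ) : ∃ M : ℝ, ∀ ξ ∈ Ξ, C ξ ≤ M := by
  classical
  induction Ξ using Finset.induction_on with
  | empty => exact ⟨0, by simp⟩
  | insert x s hx ih =>
    obtain ⟨M, hM⟩ := ih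
    refine ⟨max M (C x), fun ξ hξ => ?_⟩
    rcases Finset.mem_insert.1 hξ with rfl | h'
    · exact le_max_right _ _
    · exact (hM ξ h').trans (le_max_left _ _)

/-- D3 : localisation of the roots in the coordinates `s = 1/t`, `w = z / t^10`. -/
theorem loc_sw (a b : ℂ[X]) (h : a.eval 0 ^ 3 ≠ b.eval 0 ^ 2) (N : ℕ) :
    ∃ (Λ : Finset ℂ[X]) (C δ : ℝ), 0 < δ ∧ Λ.card ≤ 4 ∧ (∀ lam ∈ Λ, lam.natDegree ≤ N) ∧
      ∀ s w : ℂ, ‖s‖ < δ → quartic (a.eval s) (b.eval s) w = 0 →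
        ∃ lam ∈ Λ, ‖w - lam.eval s‖ ≤ C * ‖s‖ ^ (N + 1) := by
  classical
  obtain ⟨Ξ, hcard, hroots, hcoarse⟩ := quartic_coarse (a.eval 0) (b.eval 0)
  have hdata : ∀ ξ : ℂ, ∃ (lam : ℂ[X]) (C δ : ℝ), 0 < δ ∧ lam.natDegree ≤ N ∧
      (quartic (a.eval 0) (b.eval 0) ξ = 0 → ∀ s w : ℂ, ‖s‖ < δ → ‖w - ξ‖ < δ →
        quartic (a.eval s) (b.eval s) w = 0 → ‖w - lam.eval s‖ ≤ C * ‖s‖ ^ (N + 1)) := by
    intro ξ
    by_cases hξ : quartic (a.eval 0) (b.eval 0) ξ = 0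
    · have hD := quarticD_ne_zero _ _ ξ h hξ
      obtain ⟨lam, hdeg, hev, hdvd⟩ := exists_approx_root a b ξ hξ hD N
      obtain ⟨C, δ, hδ, hfine⟩ := quartic_fine a b lam N hdvd (by rw [hev]; exact hD)
      refine ⟨lam, C, δ, hδ, hdeg, fun _ s w hs hw hroot => hfine s w hs ?_ hroot⟩
      rw [hev]; exact hw
    · exact ⟨0, 0, 1, one_pos, by simp, fun h' => absurd h' hξ⟩
  choose lam C δ hδ hdeg hfine using hdata
  obtain ⟨δ₀, hδ₀, hδ₀le⟩ := locsw_exists_pos_le Ξ δ hδ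
  obtain ⟨M, hM⟩ := locsw_exists_ge Ξ C
  obtain ⟨ε, hε, hεprop⟩ := hcoarse δ₀ hδ₀
  obtain ⟨δ', hδ', hpert⟩ := quartic_perturb a b ε hε
  refine ⟨Ξ.image lam, M, min δ' δ₀, lt_min hδ' hδ₀, Finset.card_image_le.trans hcard, ?_, ?_⟩
  · intro l hl
    obtain ⟨ξ, -, rfl⟩ := Finset.mem_image.1 hl
    exact hdeg ξ
  · intro s w hs hroot
    obtain ⟨ξ, hξ, hwξ⟩ := hεprop w (hpert s w (hs.trans_le (min_le_left _ _)) hroot)
    refine ⟨lam ξ, Finset.mem_image_of_mem lam hξ, ?_⟩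
    have h1 := hfine ξ (hroots ξ hξ) s w ((hs.trans_le (min_le_right _ _)).trans_le (hδ₀le ξ hξ))
      (hwξ.trans_le (hδ₀le ξ hξ)) hroot
    exact h1.trans (mul_le_mul_of_nonneg_right (hM ξ hξ) (by positivity))

end Fermat.Agent.S52
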