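import Fermat.Agent.S52.Irred3.LocSW

/-!
# S52, NODE D4: localisation of the roots, passage from `(s, w)` to `(t, z)`

`s = 1/t`, `w = z / t^10`.  The statement in the coordinates `(s, w)` (`loc_sw`, NODE D3) is taken
as an explicit hypothesis in `root_localization_of_loc_sw`.
-/

set_option autoImplicit false
open Polynomial

namespace Fermat.Agent.S52

/-- evaluation of a reflected polynomial at `t⁻¹`. -/
theorem localization_reflect_eval_inv (f : ℂ[X]) (N : ℕ) (hf : f.natDegree ≤ N) (t : ℂ)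
    (ht : t ≠ 0) : (f.reflect N).eval t⁻¹ * t ^ N = f.eval t := by
  letI : Invertible t := invertibleOfNonzero ht
  have h := eval₂_reflect_mul_pow (RingHom.id ℂ) t N f hf
  rw [invOf_eq_inv] at h
  simpa [eval₂_id] using h

theorem localization_natDegree_reflect_le (f : ℂ[X]) (N : ℕ) (hf : f.natDegree ≤ N) :
    (f.reflect N).natDegree ≤ N := by
  have h := natDegree_reflect_le (p := f) (N := N)
  rwa [max_eq_left hf] at h

/-- homogeneity of the quartic. -/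
theorem localization_quartic_scale (α β z t : ℂ) (ht : t ≠ 0) :
    quartic (α / t ^ 20) (β / t ^ 30) (z / t ^ 10) = quartic α β z / t ^ 40 := by
  unfold quartic
  field_simp

/-- D4 with D3 (`loc_sw` for `a = A.reflect 20`, `b = B.reflect 30`, `N = 10`) as a hypothesis. -/
theorem root_localization_of_loc_sw (A B : ℂ[X]) (hA : A.natDegree ≤ 20) (hB : B.natDegree ≤ 30)
    (hloc : ∃ (Λ : Finset ℂ[X]) (C δ : ℝ), 0 < δ ∧ Λ.card ≤ 4 ∧ (∀ lam ∈ Λ, lam.natDegree ≤ 10) ∧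
      ∀ s w : ℂ, ‖s‖ < δ → quartic ((A.reflect 20).eval s) ((B.reflect 30).eval s) w = 0 →
        ∃ lam ∈ Λ, ‖w - lam.eval s‖ ≤ C * ‖s‖ ^ (10 + 1)) :
    ∃ (Ps : Finset ℂ[X]) (C T : ℝ), Ps.card ≤ 4 ∧ (∀ P ∈ Ps, P.natDegree ≤ 10) ∧
      ∀ t z : ℂ, T ≤ ‖t‖ → quartic (A.eval t) (B.eval t) z = 0 →
        ∃ P ∈ Ps, ‖z - P.eval t‖ ≤ C / ‖t‖ := by
  classical
  obtain ⟨Λ, C, δ, hδ, hcard, hdeg, hroot⟩ := hloc
  refine ⟨Λ.image (reflect 10), C, max 1 (2 / δ), Finset.card_image_le.trans hcard, ?_, ?_⟩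
  · intro P hP
    obtain ⟨lam, hlam, rfl⟩ := Finset.mem_image.1 hP
    exact localization_natDegree_reflect_le lam 10 (hdeg lam hlam)
  · intro t z hT hz
    have h1 : (1 : ℝ) ≤ ‖t‖ := (le_max_left _ _).trans hT
    have h2 : 2 / δ ≤ ‖t‖ := (le_max_right _ _).trans hT
    have htpos : 0 < ‖t‖ := lt_of_lt_of_le one_pos h1
    have ht : t ≠ 0 := norm_pos_iff.1 htpos
    have hs : ‖t⁻¹‖ < δ := by
      rw [norm_inv, inv_lt_comm₀ htpos hδ]
      have h3 : δ⁻¹ < 2 / δ := by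
        rw [div_eq_mul_inv]
        have : 0 < δ⁻¹ := inv_pos.2 hδ
        linarith
      exact lt_of_lt_of_le h3 h2
    have ha : (A.reflect 20).eval t⁻¹ = A.eval t / t ^ 20 := by
      rw [eq_div_iff (pow_ne_zero _ ht)]
      exact localization_reflect_eval_inv A 20 hA t ht
    have hb : (B.reflect 30).eval t⁻¹ = B.eval t / t ^ 30 := by
      rw [eq_div_iff (pow_ne_zero _ ht)]
      exact localization_reflect_eval_inv B 30 hB t ht
    have hq : quartic ((A.reflect 20).eval t⁻¹) ((B.reflect 30).eval t⁻¹) (z / t ^ 10) = 0 := by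
      rw [ha, hb, localization_quartic_scale _ _ _ _ ht, hz, zero_div]
    obtain ⟨lam, hlam, hle⟩ := hroot t⁻¹ (z / t ^ 10) hs hq
    refine ⟨reflect 10 lam, Finset.mem_image_of_mem _ hlam, ?_⟩
    have hP : (reflect 10 lam).eval t = lam.eval t⁻¹ * t ^ 10 := by
      have h := localization_reflect_eval_inv (reflect 10 lam) 10
        (localization_natDegree_reflect_le lam 10 (hdeg lam hlam)) t ht
      rw [reflect_reflect] at h
      exact h.symm
    have hdiff : z - (reflect 10 lam).eval t = t ^ 10 * (z / t ^ 10 - lam.eval t⁻¹) := by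
      rw [hP]
      field_simp
    rw [hdiff, norm_mul, norm_pow]
    calc ‖t‖ ^ 10 * ‖z / t ^ 10 - lam.eval t⁻¹‖
        ≤ ‖t‖ ^ 10 * (C * ‖t⁻¹‖ ^ (10 + 1)) :=
          mul_le_mul_of_nonneg_left hle (pow_nonneg htpos.le _)
      _ = C / ‖t‖ := by
          rw [norm_inv, inv_pow, pow_succ ‖t‖ 10]
          field_simp

/-- D4 with the full statement of D3 (`loc_sw`) as a hypothesis: the final `root_localization` is
`root_localization_of_D3 loc_sw`. -/
theorem root_localization_of_D3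
    (hD3 : ∀ (a b : ℂ[X]) (_ : a.eval 0 ^ 3 ≠ b.eval 0 ^ 2) (N : ℕ),
      ∃ (Λ : Finset ℂ[X]) (C δ : ℝ), 0 < δ ∧ Λ.card ≤ 4 ∧ (∀ lam ∈ Λ, lam.natDegree ≤ N) ∧
        ∀ s w : ℂ, ‖s‖ < δ → quartic (a.eval s) (b.eval s) w = 0 →
          ∃ lam ∈ Λ, ‖w - lam.eval s‖ ≤ C * ‖s‖ ^ (N + 1))
    (A B : ℂ[X]) (hA : A.natDegree ≤ 20) (hB : B.natDegree ≤ 30)
    (hlead : A.coeff 20 ^ 3 ≠ B.coeff 30 ^ 2) :
    ∃ (Ps : Finset ℂ[X]) (C T : ℝ), Ps.card ≤ 4 ∧ (∀ P ∈ Ps, P.natDegree ≤ 10) ∧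
      ∀ t z : ℂ, T ≤ ‖t‖ → quartic (A.eval t) (B.eval t) z = 0 →
        ∃ P ∈ Ps, ‖z - P.eval t‖ ≤ C / ‖t‖ := by
  refine root_localization_of_loc_sw A B hA hB (hD3 (A.reflect 20) (B.reflect 30) ?_ 10)
  rw [← coeff_zero_eq_eval_zero, ← coeff_zero_eq_eval_zero, coeff_reflect, coeff_reflect,
    revAt_zero, revAt_zero]
  exact hlead

/-- D4 : localisation of the roots: every root at `t` is within `C/|t|` of one of at most four
polynomials of degree `≤ 10`. -/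
theorem root_localization (A B : ℂ[X]) (hA : A.natDegree ≤ 20) (hB : B.natDegree ≤ 30)
    (hlead : A.coeff 20 ^ 3 ≠ B.coeff 30 ^ 2) :
    ∃ (Ps : Finset ℂ[X]) (C T : ℝ), Ps.card ≤ 4 ∧ (∀ P ∈ Ps, P.natDegree ≤ 10) ∧
      ∀ t z : ℂ, T ≤ ‖t‖ → quartic (A.eval t) (B.eval t) z = 0 →
        ∃ P ∈ Ps, ‖z - P.eval t‖ ≤ C / ‖t‖ :=
  root_localization_of_D3 loc_sw A B hA hB hlead

end Fermat.Agent.S52
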