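import Fermat.Agent.S52.Irred3.HitCore
import Fermat.Agent.S52.Irred3.Localization
import Fermat.Agent.S52.Irred3.LocSW
import Fermat.Agent.S52.Irred3.Interp

/-!
# S52, NODE D6: abstract HIT-lite
-/

set_option autoImplicit false
open Polynomial

namespace Fermat.Agent.S52

/-- D6 : abstract HIT-lite. -/
theorem hit_abstract (A B : ℤ[X]) (hA : A.natDegree ≤ 20) (hB : B.natDegree ≤ 30)
    (hlead : A.coeff 20 ^ 3 ≠ B.coeff 30 ^ 2)
    (hno : ∀ Q : ℚ[X],
      quartic (A.map (Int.castRingHom ℚ)) (B.map (Int.castRingHom ℚ)) Q ≠ 0)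
    (M : ℤ) (hM : M ≠ 0) :
    ∃ n : ℤ, ∀ Z : ℚ,
      quartic ((A.eval (M * n) : ℤ) : ℚ) ((B.eval (M * n) : ℤ) : ℚ) Z ≠ 0 :=
  hitCore (fun A B hA hB hl => root_localization_of_D3 loc_sw A B hA hB hl)
    (fun P hP C L M hM => interp_rigidity P hP C L M hM) A B hA hB hlead hno M hM

end Fermat.Agent.S52
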