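import Fermat.Agent.S52.Irred3.Defs

/-!
# S52, NODE D6: abstract HIT-lite (core, with D4 and D5 as hypotheses)

`quartic_int_root` : rational roots of the quartic with integer coefficients are integers.
`hitCore` : the pigeonhole + root count argument, taking the statements of D4
(`root_localization`) and D5 (`interp_rigidity`) as hypotheses.
-/

set_option autoImplicit false
open Polynomial

namespace Fermat.Agent.S52

/-- D6a : rational roots of the quartic with integer coefficients are integers. -/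
theorem quartic_int_root (c4 c6 : ℤ) (Z : ℚ) (h : quartic (c4 : ℚ) (c6 : ℚ) Z = 0) :
    ∃ z : ℤ, Z = z := by
  have hint : IsIntegral ℤ Z := by
    refine ⟨X ^ 4 - C (6 * c4) * X ^ 2 - C (8 * c6) * X - C (3 * c4 ^ 2), ?_, ?_⟩
    · monicity!
    · simp only [quartic] at h
      rw [eval₂_sub, eval₂_sub, eval₂_sub, eval₂_mul, eval₂_mul, eval₂_pow, eval₂_pow, eval₂_X,
        eval₂_C, eval₂_C, eval₂_C]
      simp only [eq_intCast, Int.cast_mul, Int.cast_pow, Int.cast_ofNat]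
      linarith
  obtain ⟨z, hz⟩ := IsIntegrallyClosed.isIntegral_iff.mp hint
  exact ⟨z, by simpa using hz.symm⟩

/-- the statement of D4 (`root_localization`). -/
def HitD4 : Prop :=
  ∀ (A B : ℂ[X]), A.natDegree ≤ 20 → B.natDegree ≤ 30 → A.coeff 20 ^ 3 ≠ B.coeff 30 ^ 2 →
    ∃ (Ps : Finset ℂ[X]) (C T : ℝ), Ps.card ≤ 4 ∧ (∀ P ∈ Ps, P.natDegree ≤ 10) ∧
      ∀ t z : ℂ, T ≤ ‖t‖ → quartic (A.eval t) (B.eval t) z = 0 →
        ∃ P ∈ Ps, ‖z - P.eval t‖ ≤ C / ‖t‖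

/-- the statement of D5 (`interp_rigidity`). -/
def HitD5 : Prop :=
  ∀ (P : ℂ[X]), P.natDegree ≤ 10 → ∀ (C : ℝ) (L : ℕ) (M : ℤ), M ≠ 0 →
    ∃ T : ℤ, ∀ (n₀ : ℤ) (S : Finset ℤ) (z : ℤ → ℤ), T ≤ n₀ →
      (∀ n ∈ S, n₀ < n ∧ n ≤ n₀ + L) →
      (∀ n ∈ S, ‖((z n : ℤ) : ℂ) - P.eval ((M * n : ℤ) : ℂ)‖ ≤ C / ‖((M * n : ℤ) : ℂ)‖) →
      ∃ Q : ℚ[X], Q.natDegree ≤ 10 ∧ ∀ n ∈ S, Q.eval ((M * n : ℤ) : ℚ) = (z n : ℚ)

theorem hit_quartic_map {R S : Type*} [CommRing R] [CommRing S] (f : R →+* S) (a b c : R) :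
    f (quartic a b c) = quartic (f a) (f b) (f c) := by
  simp only [quartic, map_sub, map_mul, map_pow, map_ofNat f]

theorem hit_quartic_natDegree_le (A B Q : ℚ[X]) (hA : A.natDegree ≤ 20) (hB : B.natDegree ≤ 30)
    (hQ : Q.natDegree ≤ 10) : (quartic A B Q).natDegree ≤ 40 := by
  unfold quartic
  have h6 : (6 : ℚ[X]).natDegree ≤ 0 := by
    rw [show (6 : ℚ[X]) = C 6 from (map_ofNat C 6).symm]; exact (natDegree_C _).le
  have h8 : (8 : ℚ[X]).natDegree ≤ 0 := by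
    rw [show (8 : ℚ[X]) = C 8 from (map_ofNat C 8).symm]; exact (natDegree_C _).le
  have h3 : (3 : ℚ[X]).natDegree ≤ 0 := by
    rw [show (3 : ℚ[X]) = C 3 from (map_ofNat C 3).symm]; exact (natDegree_C _).le
  have e1 : (Q ^ 4).natDegree ≤ 40 := natDegree_pow_le_of_le 4 hQ
  have e2 : (6 * A * Q ^ 2).natDegree ≤ 40 :=
    natDegree_mul_le_of_le (natDegree_mul_le_of_le h6 hA) (natDegree_pow_le_of_le 2 hQ)
  have e3 : (8 * B * Q).natDegree ≤ 40 :=
    natDegree_mul_le_of_le (natDegree_mul_le_of_le h8 hB) hQ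
  have e4 : (3 * A ^ 2).natDegree ≤ 40 :=
    natDegree_mul_le_of_le h3 (natDegree_pow_le_of_le 2 hA)
  exact (natDegree_sub_le _ _).trans (max_le ((natDegree_sub_le _ _).trans
    (max_le ((natDegree_sub_le _ _).trans (max_le e1 e2)) e3)) e4)

/-- D6 : abstract HIT-lite, with D4 and D5 as hypotheses. -/
theorem hitCore (h4 : HitD4) (h5 : HitD5)
    (A B : ℤ[X]) (hA : A.natDegree ≤ 20) (hB : B.natDegree ≤ 30)
    (hlead : A.coeff 20 ^ 3 ≠ B.coeff 30 ^ 2)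
    (hno : ∀ Q : ℚ[X],
      quartic (A.map (Int.castRingHom ℚ)) (B.map (Int.castRingHom ℚ)) Q ≠ 0)
    (M : ℤ) (hM : M ≠ 0) :
    ∃ n : ℤ, ∀ Z : ℚ,
      quartic ((A.eval (M * n) : ℤ) : ℚ) ((B.eval (M * n) : ℤ) : ℚ) Z ≠ 0 := by
  by_contra hcon
  push Not at hcon
  -- integer roots
  have hz' : ∀ n : ℤ, ∃ z : ℤ, quartic (A.eval (M * n)) (B.eval (M * n)) z = 0 := by
    intro n
    obtain ⟨Z, hZ⟩ := hcon n
    obtain ⟨z, rfl⟩ := quartic_int_root _ _ _ hZ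
    refine ⟨z, ?_⟩
    have := hit_quartic_map (Int.castRingHom ℚ) (A.eval (M * n)) (B.eval (M * n)) z
    simp only [eq_intCast] at this
    rw [hZ] at this
    exact_mod_cast this
  choose z hz using hz'
  -- complex version
  have hzC : ∀ n : ℤ, quartic ((A.map (Int.castRingHom ℂ)).eval ((M * n : ℤ) : ℂ))
      ((B.map (Int.castRingHom ℂ)).eval ((M * n : ℤ) : ℂ)) ((z n : ℤ) : ℂ) = 0 := by
    intro n
    have := hit_quartic_map (Int.castRingHom ℂ) (A.eval (M * n)) (B.eval (M * n)) (z n)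
    rw [hz n, map_zero] at this
    rw [eval_intCast_map, eval_intCast_map]
    simpa using this.symm
  have hzQ : ∀ n : ℤ, quartic ((A.map (Int.castRingHom ℚ)).eval ((M * n : ℤ) : ℚ))
      ((B.map (Int.castRingHom ℚ)).eval ((M * n : ℤ) : ℚ)) ((z n : ℤ) : ℚ) = 0 := by
    intro n
    have := hit_quartic_map (Int.castRingHom ℚ) (A.eval (M * n)) (B.eval (M * n)) (z n)
    rw [hz n, map_zero] at this
    rw [eval_intCast_map, eval_intCast_map]
    simpa using this.symm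
  have hleadC : (A.map (Int.castRingHom ℂ)).coeff 20 ^ 3 ≠
      (B.map (Int.castRingHom ℂ)).coeff 30 ^ 2 := by
    rw [coeff_map, coeff_map]
    simp only [eq_intCast]
    exact_mod_cast hlead
  obtain ⟨Ps, C, T, hcard, hdeg, hloc⟩ := h4 (A.map (Int.castRingHom ℂ))
    (B.map (Int.castRingHom ℂ)) (natDegree_map_le.trans hA) (natDegree_map_le.trans hB) hleadC
  -- thresholds from D5
  have hTP : ∀ P : ℂ[X], ∃ TP : ℤ, P ∈ Ps → ∀ (n₀ : ℤ) (S : Finset ℤ) (z : ℤ → ℤ), TP ≤ n₀ →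
      (∀ n ∈ S, n₀ < n ∧ n ≤ n₀ + (165 : ℕ)) →
      (∀ n ∈ S, ‖((z n : ℤ) : ℂ) - P.eval ((M * n : ℤ) : ℂ)‖ ≤ C / ‖((M * n : ℤ) : ℂ)‖) →
      ∃ Q : ℚ[X], Q.natDegree ≤ 10 ∧ ∀ n ∈ S, Q.eval ((M * n : ℤ) : ℚ) = (z n : ℚ) := by
    intro P
    by_cases hP : P ∈ Ps
    · obtain ⟨TP, h⟩ := h5 P (hdeg P hP) C 165 M hM
      exact ⟨TP, fun _ => h⟩
    · exact ⟨0, fun h => absurd h hP⟩
  choose TP hTP using hTP
  set n0 : ℤ := (∑ P ∈ Ps, |TP P|) + ⌈|T|⌉ + 1 with hn0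
  have hsum_nonneg : 0 ≤ ∑ P ∈ Ps, |TP P| := Finset.sum_nonneg (fun _ _ => abs_nonneg _)
  have hceil_nonneg : 0 ≤ ⌈|T|⌉ := Int.ceil_nonneg (abs_nonneg _)
  have hTPle : ∀ P ∈ Ps, TP P ≤ n0 := by
    intro P hP
    have h1 : |TP P| ≤ ∑ P ∈ Ps, |TP P| :=
      Finset.single_le_sum (f := fun P => |TP P|) (fun _ _ => abs_nonneg _) hP
    have h2 := le_abs_self (TP P)
    omega
  have hTle : T ≤ (n0 : ℝ) := by
    have h1 : T ≤ |T| := le_abs_self T
    have h2 : |T| ≤ (⌈|T|⌉ : ℝ) := Int.le_ceil _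
    have h3 : (⌈|T|⌉ : ℝ) ≤ (n0 : ℝ) := by
      have : ⌈|T|⌉ ≤ n0 := by omega
      exact_mod_cast this
    linarith
  have hn0pos : 1 ≤ n0 := by omega
  set W : Finset ℤ := Finset.Ioc n0 (n0 + 165) with hW
  have hWcard : W.card = 165 := by
    rw [hW, Int.card_Ioc]; simp
  have hnorm : ∀ n ∈ W, T ≤ ‖((M * n : ℤ) : ℂ)‖ := by
    intro n hn
    rw [hW, Finset.mem_Ioc] at hn
    rw [Complex.norm_intCast]
    have h1 : (n0 : ℝ) ≤ ((|M * n| : ℤ) : ℝ) := by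
      have hMabs : 1 ≤ |M| := Int.one_le_abs hM
      have hnabs : |n| = n := abs_of_nonneg (by omega)
      have : n0 ≤ |M * n| := by
        rw [abs_mul, hnabs]
        nlinarith
      exact_mod_cast this
    have h2 : ((|M * n| : ℤ) : ℝ) = |((M * n : ℤ) : ℝ)| := by push_cast; rfl
    linarith
  have hPn : ∀ n : ℤ, ∃ P : ℂ[X], n ∈ W →
      (P ∈ Ps ∧ ‖((z n : ℤ) : ℂ) - P.eval ((M * n : ℤ) : ℂ)‖ ≤ C / ‖((M * n : ℤ) : ℂ)‖) := by
    intro n
    by_cases hn : n ∈ W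
    · obtain ⟨P, hP, hb⟩ := hloc _ _ (hnorm n hn) (hzC n)
      exact ⟨P, fun _ => ⟨hP, hb⟩⟩
    · exact ⟨0, fun h => absurd h hn⟩
  choose Pn hPn using hPn
  obtain ⟨P, hP, hfib⟩ := Finset.exists_lt_card_fiber_of_mul_lt_card_of_maps_to
    (s := W) (t := Ps) (f := Pn) (n := 41) (fun n hn => (hPn n hn).1) (by rw [hWcard]; omega)
  set S : Finset ℤ := W.filter (fun n => Pn n = P) with hS
  obtain ⟨Q, hQdeg, hQ⟩ := hTP P hP n0 S z (hTPle P hP)
    (by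
      intro n hn
      rw [hS, Finset.mem_filter, hW, Finset.mem_Ioc] at hn
      exact ⟨hn.1.1, by simpa using hn.1.2⟩)
    (by
      intro n hn
      rw [hS, Finset.mem_filter] at hn
      have := (hPn n hn.1).2
      rwa [hn.2] at this)
  apply hno Q
  apply eq_zero_of_natDegree_lt_card_of_eval_eq_zero' _
    (S.image (fun n : ℤ => ((M * n : ℤ) : ℚ)))
  · intro i hi
    rw [Finset.mem_image] at hi
    obtain ⟨n, hn, rfl⟩ := hi
    have := hit_quartic_map (evalRingHom ((M * n : ℤ) : ℚ)) (A.map (Int.castRingHom ℚ))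
      (B.map (Int.castRingHom ℚ)) Q
    simp only [coe_evalRingHom] at this
    rw [this, hQ n hn]
    exact hzQ n
  · rw [Finset.card_image_of_injective]
    · exact lt_of_le_of_lt (hit_quartic_natDegree_le _ _ _ (natDegree_map_le.trans hA)
        (natDegree_map_le.trans hB) hQdeg) (by omega)
    · intro a b hab
      have hab' : ((M * a : ℤ) : ℚ) = ((M * b : ℤ) : ℚ) := hab
      have : M * a = M * b := by exact_mod_cast hab'
      exact mul_left_cancel₀ hM this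

end Fermat.Agent.S52
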