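import Fermat.Agent.S52.Irred3.Defs

/-!
# S52, NODE D1: Newton iteration in `K[X]` for the quartic (owner helper220)
-/

set_option autoImplicit false
open Polynomial

namespace Fermat.Agent.S52

theorem newton_taylor {R : Type*} [CommRing R] (a b l h : R) :
    quartic a b (l + h) = quartic a b l + quarticD a b l * h
      + h ^ 2 * (6 * l ^ 2 + 4 * l * h + h ^ 2 - 6 * a) := by
  unfold quartic quarticD; ring

theorem newton_eval_quartic {R : Type*} [CommRing R] (a b l : R[X]) (s : R) :
    (quartic a b l).eval s = quartic (a.eval s) (b.eval s) (l.eval s) := by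
  simp [quartic]

theorem newton_eval_quarticD {R : Type*} [CommRing R] (a b l : R[X]) (s : R) :
    (quarticD a b l).eval s = quarticD (a.eval s) (b.eval s) (l.eval s) := by
  simp [quarticD]

/-- D1 : Newton iteration in `K[X]`. -/
theorem exists_approx_root {K : Type*} [Field K] (a b : K[X]) (ξ : K)
    (h0 : quartic (a.eval 0) (b.eval 0) ξ = 0) (h1 : quarticD (a.eval 0) (b.eval 0) ξ ≠ 0)
    (N : ℕ) :
    ∃ lam : K[X], lam.natDegree ≤ N ∧ lam.eval 0 = ξ ∧ X ^ (N + 1) ∣ quartic a b lam := by
  induction N with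
  | zero =>
    refine ⟨C ξ, by simp, by simp, ?_⟩
    rw [zero_add, pow_one, X_dvd_iff, coeff_zero_eq_eval_zero, newton_eval_quartic, eval_C]
    exact h0
  | succ N ih =>
    obtain ⟨lam, hdeg, hev, rho, hrho⟩ := ih
    set c := rho.eval 0 / quarticD (a.eval 0) (b.eval 0) ξ with hc
    refine ⟨lam - C c * X ^ (N + 1), ?_, ?_, ?_⟩
    · refine (natDegree_sub_le _ _).trans (max_le (hdeg.trans (Nat.le_succ N)) ?_)
      exact natDegree_C_mul_X_pow_le c (N + 1)
    · simp [hev]
    · have hX : X ∣ rho - quarticD a b lam * C c := by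
        rw [X_dvd_iff, coeff_zero_eq_eval_zero, eval_sub, eval_mul, newton_eval_quarticD, hev,
          eval_C, hc]
        field_simp
        ring
      obtain ⟨σ, hσ⟩ := hX
      refine ⟨σ + X ^ N * C c ^ 2 * (6 * lam ^ 2 + 4 * lam * (-(C c * X ^ (N + 1)))
        + (-(C c * X ^ (N + 1))) ^ 2 - 6 * a), ?_⟩
      rw [sub_eq_add_neg, newton_taylor, hrho]
      linear_combination X ^ (N + 1) * hσ

end Fermat.Agent.S52
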