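import Fermat.Agent.S52.Irred3.Defs

/-!
# S52, NODE D2: separability of the quartic, and coarse localisation of its roots
(owner helper220)
-/

set_option autoImplicit false
open Polynomial

namespace Fermat.Agent.S52

/-- D2a : the quartic is separable when `α³ ≠ β²`. -/
theorem quarticD_ne_zero {K : Type*} [Field K] [CharZero K] (α β ξ : K) (h : α ^ 3 ≠ β ^ 2)
    (h0 : quartic α β ξ = 0) : quarticD α β ξ ≠ 0 := by
  intro h1
  apply h
  have he : ξ ^ 3 - 3 * α * ξ - 2 * β = 0 := by
    have : (4 : K) * (ξ ^ 3 - 3 * α * ξ - 2 * β) = 0 := by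
      unfold quarticD at h1; linear_combination h1
    rcases mul_eq_zero.1 this with h4 | h4
    · norm_num at h4
    · exact h4
  have hm : ξ ^ 2 - α = 0 := by
    have : (3 : K) * (ξ ^ 2 - α) ^ 2 = 0 := by
      unfold quartic at h0; linear_combination 4 * ξ * he - h0
    rcases mul_eq_zero.1 this with h3 | h3
    · norm_num at h3
    · exact pow_eq_zero_iff (two_ne_zero) |>.1 h3
  have hβ : β = -α * ξ := by
    have : (2 : K) * (β + α * ξ) = 0 := by linear_combination ξ * hm - he
    rcases mul_eq_zero.1 this with h2 | h2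
    · norm_num at h2
    · linear_combination h2
  rw [hβ]
  linear_combination (-α ^ 2) * hm

/-- the quartic as a polynomial. -/
noncomputable def rootsPoly (α β : ℂ) : ℂ[X] :=
  X ^ 4 - C (6 * α) * X ^ 2 - C (8 * β) * X - C (3 * α ^ 2)

theorem rootsPoly_eval (α β w : ℂ) : (rootsPoly α β).eval w = quartic α β w := by
  simp [rootsPoly, quartic]

theorem rootsPoly_monic (α β : ℂ) : (rootsPoly α β).Monic := by
  unfold rootsPoly
  monicity!

theorem rootsPoly_natDegree (α β : ℂ) : (rootsPoly α β).natDegree = 4 := by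
  unfold rootsPoly
  compute_degree!

theorem roots_pow_card_le (w : ℂ) (δ : ℝ) (hδ : 0 ≤ δ) (s : Multiset ℂ)
    (h : ∀ r ∈ s, δ ≤ ‖w - r‖) : δ ^ Multiset.card s ≤ ‖(s.map fun r => w - r).prod‖ := by
  induction s using Multiset.induction with
  | empty => simp
  | cons r s ih =>
    rw [Multiset.card_cons, Multiset.map_cons, Multiset.prod_cons, norm_mul, pow_succ, mul_comm]
    exact mul_le_mul (h r (Multiset.mem_cons_self r s))
      (ih fun r' hr' => h r' (Multiset.mem_cons_of_mem hr')) (pow_nonneg hδ _) (norm_nonneg _)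

/-- D2b : a point where the quartic is small is close to a root. -/
theorem quartic_coarse (α β : ℂ) :
    ∃ Ξ : Finset ℂ, Ξ.card ≤ 4 ∧ (∀ ξ ∈ Ξ, quartic α β ξ = 0) ∧
      ∀ δ : ℝ, 0 < δ → ∃ ε : ℝ, 0 < ε ∧ ∀ w : ℂ, ‖quartic α β w‖ < ε → ∃ ξ ∈ Ξ, ‖w - ξ‖ < δ := by
  classical
  set p := rootsPoly α β with hp
  have hmonic : p.Monic := rootsPoly_monic α β
  have hcard : Multiset.card p.roots = 4 := by
    rw [← rootsPoly_natDegree α β]
    exact (IsAlgClosed.splits p).natDegree_eq_card_roots.symm
  have hprod : (p.roots.map fun r => X - C r).prod = p :=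
    prod_multiset_X_sub_C_of_monic_of_roots_card_eq hmonic
      (by rw [hcard, hp, rootsPoly_natDegree])
  refine ⟨p.roots.toFinset, ?_, ?_, ?_⟩
  · exact (Multiset.toFinset_card_le _).trans hcard.le
  · intro ξ hξ
    rw [Multiset.mem_toFinset, mem_roots hmonic.ne_zero, IsRoot.def, hp, rootsPoly_eval] at hξ
    exact hξ
  · intro δ hδ
    refine ⟨δ ^ 4, pow_pos hδ 4, fun w hw => ?_⟩
    by_contra hcon
    push Not at hcon
    have h1 := roots_pow_card_le w δ hδ.le p.roots
      (fun r hr => hcon r (Multiset.mem_toFinset.2 hr))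
    have h2 : (p.roots.map fun r => w - r).prod = quartic α β w := by
      rw [← rootsPoly_eval, ← hp, ← hprod, eval_multiset_prod, Multiset.map_map]
      simp
    rw [hcard, h2] at h1
    exact absurd hw (not_lt.2 h1)

end Fermat.Agent.S52
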